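import Fermat.Agent.BanachRuziewicz.Rotation
import Mathlib.Analysis.SpecialFunctions.Exponential

/-!
# The averaging operator of the rotations of norm `p`

The Chebyshev polynomial of a coordinate is the trace of a symmetric power, so the iterates of the
averaging operator on it are traces against the powers of a self-adjoint matrix; a bound `θ` for
its eigenvalues, as `2 p ^ (3 / 4) / (p + 1)` at a prime, is a rate for them. By Stone and
Weierstrass the functions with that rate are dense.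
-/

set_option autoImplicit false
set_option linter.unusedSectionVars false
set_option linter.style.haveILetI false

noncomputable section

open Filter Quaternion Matrix MeasureTheory Metric
open scoped Topology Quaternion RealInnerProductSpace ComplexConjugate
open FA.QuaternionJL FA.QuaternionJLSystems
open FA.QuaternionTrace (chebyU chebyU_zero chebyU_one chebyU_add_two continuous_chebyU)
open FA.SphereHecke (R4 dirMat sphereLaw unitMat twist twist_mul twist_one trace_twist
  unitMat_conjTranspose avgU avgU_eq avgU_mul det_dirMat trace_symMat_cheby ae_norm_one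
  integrable_sphereLaw integral_comp_isometry)

namespace FA.BanachRuziewicz

/-- The averaging operator. -/
def avgOp (p : ℕ) : (R4 → ℝ) →ₗ[ℝ] (R4 → ℝ) where
  toFun F u := ((normHz p).card : ℝ)⁻¹ * ∑ x ∈ normHz p, F (rotFun p x u)
  map_add' F G := by
    funext u
    simp [Finset.sum_add_distrib, mul_add]
  map_smul' c F := by
    funext u
    simp [Finset.mul_sum, mul_left_comm]

theorem avgOp_apply (p : ℕ) (F : R4 → ℝ) (u : R4) :
    avgOp p F u = ((normHz p).card : ℝ)⁻¹ * ∑ x ∈ normHz p, F (rotFun p x u) := rfl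

theorem avgOp_succ (p : ℕ) (F : R4 → ℝ) (r : ℕ) (u : R4) :
    (avgOp p)^[r + 1] F u =
      ((normHz p).card : ℝ)⁻¹ * ∑ x ∈ normHz p, (avgOp p)^[r] F (rotFun p x u) := by
  rw [Function.iterate_succ_apply', avgOp_apply]

theorem continuous_avgOp {p : ℕ} {F : R4 → ℝ} (hF : Continuous F) (r : ℕ) :
    Continuous ((avgOp p)^[r] F) := by
  induction r with
  | zero => exact hF
  | succ r ih =>
    rw [show ((avgOp p)^[r + 1] F) = fun u =>
      ((normHz p).card : ℝ)⁻¹ * ∑ x ∈ normHz p, (avgOp p)^[r] F (rotFun p x u) from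
        funext (avgOp_succ p F r)]
    exact (continuous_finsetSum _ fun x _ => ih.comp (continuous_rotFun p x)).const_mul _

/-- The rate. -/
def gapRate (p : ℕ) : ℝ := 2 * (p : ℝ) ^ (3 / 4 : ℝ) / ((p : ℝ) + 1)

theorem gapRate_nonneg (p : ℕ) : 0 ≤ gapRate p := by
  rw [gapRate]
  positivity

theorem gapRate_lt_one {p : ℕ} (h16 : 16 ≤ p) : gapRate p < 1 := by
  have hp : (0 : ℝ) < p := Nat.cast_pos.2 (by omega)
  have h2 : (2 : ℝ) ≤ (p : ℝ) ^ (1 / 4 : ℝ) := by
    refine le_trans (le_of_eq ?_) (Real.rpow_le_rpow (by norm_num)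
      (show (16 : ℝ) ≤ p by exact_mod_cast h16) (by norm_num))
    rw [show (16 : ℝ) = 2 ^ (4 : ℝ) by norm_num, ← Real.rpow_mul (by norm_num)]
    norm_num
  rw [gapRate, div_lt_one (by positivity)]
  calc 2 * (p : ℝ) ^ (3 / 4 : ℝ) ≤ (p : ℝ) ^ (1 / 4 : ℝ) * (p : ℝ) ^ (3 / 4 : ℝ) :=
        mul_le_mul_of_nonneg_right h2 (by positivity)
    _ = p := by
        rw [← Real.rpow_add hp]
        norm_num
    _ < (p : ℝ) + 1 := lt_add_one _

variable {p : ℕ}

/-- The factor normalising the eigenvalues. -/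
def eigenScale (p j : ℕ) : ℝ := 24 / ((normHz p).card : ℝ) * ((Real.sqrt p)⁻¹) ^ j

/-- A norm whose eigenvalues are at most `θ` times the trivial one. -/
structure Rated (p : ℕ) (θ : ℝ) : Prop where
  ne_zero : p ≠ 0
  nonempty : (normHz p).Nonempty
  pos : 0 < θ
  lt_one : θ < 1
  eigen : ∀ j, 0 < j → ∀ (μ : ℝ) (v : Fin (j + 1) → ℂ), v ≠ 0 → avgU j p *ᵥ v = (μ : ℂ) • v →
    |eigenScale p j * μ| ≤ θ

/-- The matrix of the operator on the Chebyshev polynomials of degree `j`. -/
def opMat (p j : ℕ) : Matrix (Fin (j + 1)) (Fin (j + 1)) ℂ :=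
  ((eigenScale p j : ℝ) : ℂ) • avgU j p

/-- **Iterates on a Chebyshev polynomial of a coordinate are traces.** -/
theorem iterate_cheby (hp : p ≠ 0) (j : ℕ) {g : R4} (hg : ‖g‖ = 1) :
    ∀ (r : ℕ) (u : R4), ‖u‖ = 1 →
      (((avgOp p)^[r] fun v => chebyU j (2 * ⟪v, g⟫)) u : ℂ) =
        (opMat p j ^ r * unitMat j (matU u * dirMat g)).trace := by
  intro r
  induction r with
  | zero =>
    intro u hu
    rw [pow_zero, Matrix.one_mul, unitMat, trace_twist, Function.iterate_zero_apply,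
      trace_symMat_cheby j (s := 1) (τ := 2 * ⟪u, g⟫) (by rw [one_mul]; exact trace_matU_dirMat u g)
        (by rw [det_mul, det_matU hu, det_dirMat hg]; simp) one_ne_zero, one_pow, one_mul]
  | succ r ih =>
    intro u hu
    have hW : (matU u * dirMat g).det ≠ 0 := by
      rw [det_mul, det_matU hu, det_dirMat hg, mul_one]
      exact one_ne_zero
    have hterm : ∀ x ∈ normHz p,
        (((avgOp p)^[r] fun v => chebyU j (2 * ⟪v, g⟫)) (rotFun p x u) : ℂ) =
          ((((Real.sqrt p)⁻¹) ^ j : ℝ) : ℂ) *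
            (opMat p j ^ r * (unitMat j (toMat x) * unitMat j (matU u * dirMat g))).trace :=
      fun x hx => by
        rw [ih _ ((norm_rotFun hp hx u).trans hu), matU_rotFun, Matrix.smul_mul,
          Matrix.mul_assoc, unitMat, symMat_smul, symMat_mul j hW, map_smul, twist_mul,
          Matrix.mul_smul, Matrix.trace_smul, smul_eq_mul, Complex.ofReal_pow]
        rfl
    rw [avgOp_succ, Complex.ofReal_mul, Complex.ofReal_sum, Finset.sum_congr rfl hterm,
      ← Finset.mul_sum, ← Matrix.trace_sum, ← Finset.mul_sum, ← Finset.sum_mul,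
      pow_succ, opMat, eigenScale, Matrix.mul_assoc, Matrix.smul_mul,
      avgU_eq, Matrix.smul_mul, Matrix.mul_smul, Matrix.mul_smul, Matrix.trace_smul,
      Matrix.trace_smul, smul_eq_mul, smul_eq_mul]
    push_cast
    ring

theorem norm_unitMat_le {j : ℕ} {u g : R4} (hu : ‖u‖ = 1) (hg : ‖g‖ = 1) (k l : Fin (j + 1)) :
    ‖unitMat j (matU u * dirMat g) k l‖ ≤ 1 := by
  have hg' : (dirMat g)ᴴ = matU g := by
    rw [← matU_conjTranspose, conjTranspose_conjTranspose]
  have hW : (matU u * dirMat g).det ≠ 0 := by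
    rw [det_mul, det_matU hu, det_dirMat hg, mul_one]
    exact one_ne_zero
  have h1 : (unitMat j (matU u * dirMat g))ᴴ * unitMat j (matU u * dirMat g) = 1 := by
    rw [unitMat_conjTranspose, unitMat, unitMat, ← twist_mul, ← symMat_mul j hW,
      conjTranspose_mul, hg', matU_conjTranspose, Matrix.mul_assoc, ← Matrix.mul_assoc (dirMat u),
      dirMat_mul_matU hu, Matrix.one_mul, matU_mul_dirMat hg, symMat_one, twist_one]
  have h2 := congrFun (congrFun h1 l) l
  rw [Matrix.mul_apply, Matrix.one_apply_eq] at h2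
  have h3 : ∑ i, Complex.normSq (unitMat j (matU u * dirMat g) i l) = 1 := by
    have : ((∑ i, Complex.normSq (unitMat j (matU u * dirMat g) i l) : ℝ) : ℂ) = 1 := by
      rw [← h2]
      push_cast
      exact Finset.sum_congr rfl fun i _ => by
        rw [Complex.normSq_eq_conj_mul_self, conjTranspose_apply, RCLike.star_def]
    exact_mod_cast this
  have h4 := Finset.single_le_sum (f := fun i => Complex.normSq (unitMat j (matU u * dirMat g) i l))
    (fun i _ => Complex.normSq_nonneg _) (Finset.mem_univ k)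
  rw [h3, Complex.normSq_eq_norm_sq] at h4
  exact (sq_le_one_iff₀ (norm_nonneg _)).1 h4

/-- **The powers of the matrix decay at the rate.** -/
theorem exists_opMat_bound {θ : ℝ} (h : Rated p θ) {j : ℕ} (hj : 0 < j) (k l : Fin (j + 1)) :
    ∃ C, ∀ r, ‖(opMat p j ^ r) k l‖ ≤ C * θ ^ r := by
  set hA := SphereHecke.isHermitian_avgU j p
  set B := hA.eigenvectorBasis
  set c : ℝ := eigenScale p j with hc
  set w : Fin (j + 1) → ℂ := Pi.single l 1
  have hw : w = ∑ i, B.repr (WithLp.toLp 2 w) i • WithLp.ofLp (B i) := by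
    have := congrArg WithLp.ofLp (B.sum_repr (WithLp.toLp 2 w))
    rw [WithLp.ofLp_sum] at this
    simpa using this.symm
  have he : ∀ i, avgU j p *ᵥ WithLp.ofLp (B i) =
      ((hA.eigenvalues i : ℝ) : ℂ) • WithLp.ofLp (B i) := fun i => by
    rw [hA.mulVec_eigenvectorBasis i]
    exact RCLike.real_smul_eq_coe_smul _ _
  have hrate : ∀ i, |c * hA.eigenvalues i| ≤ θ := fun i =>
    h.eigen j hj _ _ (fun h => B.toBasis.ne_zero i (by
      rw [OrthonormalBasis.coe_toBasis]
      exact WithLp.ofLp_injective 2 h)) (he i)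
  have hpow : ∀ i r, (opMat p j ^ r) *ᵥ WithLp.ofLp (B i) =
      (((c * hA.eigenvalues i) ^ r : ℝ) : ℂ) • WithLp.ofLp (B i) := fun i r => by
    induction r with
    | zero => simp
    | succ r ih =>
      rw [pow_succ (opMat p j), ← Matrix.mulVec_mulVec, opMat, Matrix.smul_mulVec, he i, smul_smul,
        Matrix.mulVec_smul, ← opMat, ih, smul_smul, pow_succ (c * hA.eigenvalues i), ← hc]
      congr 1
      push_cast
      ring
  refine ⟨∑ i, ‖B.repr (WithLp.toLp 2 w) i‖ * ‖WithLp.ofLp (B i) k‖, fun r => ?_⟩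
  have e : (opMat p j ^ r) k l = ((opMat p j ^ r) *ᵥ w) k := by
    simp [w]
  rw [e]
  conv_lhs => rw [hw]
  rw [Matrix.mulVec_sum, Finset.sum_apply, Finset.sum_mul]
  refine (norm_sum_le _ _).trans (Finset.sum_le_sum fun i _ => ?_)
  rw [Matrix.mulVec_smul, hpow, Pi.smul_apply, Pi.smul_apply, smul_eq_mul, smul_eq_mul, norm_mul,
    norm_mul, Complex.norm_real, Real.norm_eq_abs, abs_pow]
  exact (mul_le_mul_of_nonneg_left (mul_le_mul_of_nonneg_right
    (pow_le_pow_left₀ (abs_nonneg _) (hrate i) r) (norm_nonneg _)) (norm_nonneg _)).trans_eq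
      (by ring)

/-- **Decay on the Chebyshev polynomials of a coordinate.** -/
theorem exists_cheby_bound {θ : ℝ} (h : Rated p θ) {j : ℕ} (hj : 0 < j) {g : R4}
    (hg : ‖g‖ = 1) :
    ∃ C, ∀ (r : ℕ) (u : R4), ‖u‖ = 1 →
      |((avgOp p)^[r] fun v => chebyU j (2 * ⟪v, g⟫)) u| ≤ C * θ ^ r := by
  choose C hC using exists_opMat_bound h (j := j) hj
  refine ⟨∑ k, ∑ l, C k l, fun r u hu => ?_⟩
  rw [← Real.norm_eq_abs, ← Complex.norm_real, iterate_cheby h.ne_zero j hg r u hu, Matrix.trace,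
    Finset.sum_mul]
  refine (norm_sum_le _ _).trans (Finset.sum_le_sum fun k _ => ?_)
  rw [diag_apply, Matrix.mul_apply, Finset.sum_mul]
  refine (norm_sum_le _ _).trans (Finset.sum_le_sum fun l _ => ?_)
  rw [norm_mul]
  exact (mul_le_mul (hC k l r) (norm_unitMat_le hu hg l k) (norm_nonneg _)
    ((norm_nonneg _).trans (hC k l r))).trans_eq (mul_one _)

/-- Functions whose iterates settle at the rate. -/
def Settles (p : ℕ) (θ : ℝ) (F : R4 → ℝ) : Prop :=
  ∃ c C : ℝ, ∀ (r : ℕ) (u : R4), ‖u‖ = 1 → |(avgOp p)^[r] F u - c| ≤ C * θ ^ r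

theorem avgOp_congr (hp : p ≠ 0) {F G : R4 → ℝ} (h : ∀ u : R4, ‖u‖ = 1 → F u = G u) :
    ∀ (r : ℕ) (u : R4), ‖u‖ = 1 → (avgOp p)^[r] F u = (avgOp p)^[r] G u := by
  intro r
  induction r with
  | zero => exact h
  | succ r ih =>
    intro u hu
    rw [avgOp_succ, avgOp_succ]
    exact congrArg _ (Finset.sum_congr rfl fun x hx =>
      ih _ ((norm_rotFun hp hx u).trans hu))

theorem avgOp_const (hne : (normHz p).Nonempty) (a : ℝ) (r : ℕ) (u : R4) :
    ((avgOp p)^[r] fun _ => a) u = a := by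
  induction r generalizing u with
  | zero => rfl
  | succ r ih =>
    rw [avgOp_succ, Finset.sum_congr rfl fun x _ => ih _, Finset.sum_const, nsmul_eq_mul,
      inv_mul_cancel_left₀]
    exact Nat.cast_ne_zero.2 hne.card_pos.ne'

theorem Settles.congr {θ : ℝ} (hp : p ≠ 0) {F G : R4 → ℝ} (h : ∀ u : R4, ‖u‖ = 1 → F u = G u)
    (hF : Settles p θ F) : Settles p θ G := by
  obtain ⟨c, C, hC⟩ := hF
  exact ⟨c, C, fun r u hu => by rw [← avgOp_congr hp h r u hu]; exact hC r u hu⟩

theorem settles_const {θ : ℝ} (h : Rated p θ) (a : ℝ) : Settles p θ fun _ => a :=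
  ⟨a, 0, fun r u _ => by rw [avgOp_const h.nonempty, sub_self, abs_zero, zero_mul]⟩

theorem Settles.add {θ : ℝ} {F G : R4 → ℝ} (hF : Settles p θ F) (hG : Settles p θ G) :
    Settles p θ fun u => F u + G u := by
  obtain ⟨c, C, hC⟩ := hF
  obtain ⟨d, D, hD⟩ := hG
  refine ⟨c + d, C + D, fun r u hu => ?_⟩
  rw [show (fun u => F u + G u) = F + G from rfl, iterate_map_add, Pi.add_apply, add_mul,
    add_sub_add_comm]
  exact (abs_add_le _ _).trans (add_le_add (hC r u hu) (hD r u hu))

theorem Settles.const_mul {θ : ℝ} {F : R4 → ℝ} (hF : Settles p θ F) (a : ℝ) :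
    Settles p θ fun u => a * F u := by
  obtain ⟨c, C, hC⟩ := hF
  refine ⟨a * c, |a| * C, fun r u hu => ?_⟩
  have e : ((avgOp p)^[r] fun u => a * F u) = a • (avgOp p)^[r] F := by
    rw [show (fun u => a * F u) = a • F from rfl]
    induction r with
    | zero => rfl
    | succ r ih => rw [Function.iterate_succ_apply', Function.iterate_succ_apply', ih, map_smul]
  rw [e, Pi.smul_apply, smul_eq_mul, ← mul_sub, abs_mul, mul_assoc]
  exact mul_le_mul_of_nonneg_left (hC r u hu) (abs_nonneg a)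

theorem settles_moment {θ : ℝ} (h : Rated p θ) {g : R4} (hg : ‖g‖ = 1) :
    ∀ n i : ℕ, Settles p θ fun u => (2 * ⟪u, g⟫) ^ n * chebyU i (2 * ⟪u, g⟫) := by
  intro n
  induction n with
  | zero =>
    intro i
    simp only [pow_zero, one_mul]
    rcases Nat.eq_zero_or_pos i with rfl | hi
    · simp only [chebyU_zero]
      exact settles_const h 1
    · obtain ⟨C, hC⟩ := exists_cheby_bound h hi hg
      exact ⟨0, C, fun r u hu => by rw [sub_zero]; exact hC r u hu⟩
  | succ n ih =>
    intro i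
    match i with
    | 0 =>
      refine (ih 1).congr h.ne_zero fun u _ => ?_
      rw [chebyU_one, chebyU_zero, pow_succ, mul_one]
    | l + 1 =>
      refine ((ih (l + 2)).add (ih l)).congr h.ne_zero fun u _ => ?_
      rw [chebyU_add_two, pow_succ]
      ring

theorem settles_inner_pow {θ : ℝ} (h : Rated p θ) (g : R4) (n : ℕ) :
    Settles p θ fun u => ⟪g, u⟫ ^ n := by
  rcases eq_or_ne g 0 with rfl | hg
  · simp only [inner_zero_left]
    exact settles_const h _
  · have hn : ‖g‖ ≠ 0 := norm_ne_zero_iff.2 hg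
    have h1 : ‖‖g‖⁻¹ • g‖ = 1 := by rw [norm_smul, norm_inv, norm_norm, inv_mul_cancel₀ hn]
    refine ((settles_moment h h1 n 0).const_mul ((‖g‖ / 2) ^ n)).congr h.ne_zero fun u _ => ?_
    rw [chebyU_zero, mul_one, real_inner_smul_right, ← mul_pow, real_inner_comm]
    congr 1
    field_simp

/-- **The iterates settle at the mean.** -/
theorem exists_settle_bound {θ : ℝ} (h : Rated p θ) {F : R4 → ℝ} (hF : Continuous F)
    (hs : Settles p θ F) :
    ∃ C, ∀ (r : ℕ) (u : R4), ‖u‖ = 1 →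
      |(avgOp p)^[r] F u - ∫ v, F v ∂sphereLaw| ≤ C * θ ^ r := by
  obtain ⟨c, C, hC⟩ := hs
  have hint : ∀ r, ∫ v, (avgOp p)^[r] F v ∂sphereLaw = ∫ v, F v ∂sphereLaw := fun r => by
    induction r with
    | zero => rfl
    | succ r ih =>
      simp only [avgOp_succ]
      rw [integral_const_mul, integral_finsetSum _ fun x _ => integrable_sphereLaw
          (φ := fun v => (avgOp p)^[r] F (rotFun p x v))
          ((continuous_avgOp hF r).comp (continuous_rotFun p x)),
        Finset.sum_congr rfl fun x hx =>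
          (integral_comp_isometry (rotEquiv h.ne_zero hx) (continuous_avgOp hF r) : _),
        Finset.sum_const, nsmul_eq_mul, ih, inv_mul_cancel_left₀]
      exact Nat.cast_ne_zero.2 h.nonempty.card_pos.ne'
  have hb : ∀ r, |(∫ v, F v ∂sphereLaw) - c| ≤ C * θ ^ r := fun r => by
    have h1 := norm_integral_le_of_norm_le_const (μ := sphereLaw)
      (f := fun v => (avgOp p)^[r] F v - c) (C := C * θ ^ r) (by
        filter_upwards [ae_norm_one] with u hu
        exact hC r u hu)
    rw [integral_sub (integrable_sphereLaw (continuous_avgOp hF r)) (integrable_const c),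
      hint r, integral_const, probReal_univ, one_smul, mul_one] at h1
    exact h1
  have hlim : Tendsto (fun r => C * θ ^ r) atTop (𝓝 0) := by
    simpa using (tendsto_pow_atTop_nhds_zero_of_lt_one h.pos.le h.lt_one).const_mul C
  have h0 : |(∫ v, F v ∂sphereLaw) - c| ≤ 0 := ge_of_tendsto' hlim hb
  rw [sub_eq_zero.1 (abs_eq_zero.1 (le_antisymm h0 (abs_nonneg _)))]
  exact ⟨C, hC⟩

/-- Uniform limits on the sphere of functions that settle. -/
def NearSettles (p : ℕ) (θ : ℝ) (φ : R4 → ℝ) : Prop :=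
  ∀ ε > 0, ∃ q, Continuous q ∧ Settles p θ q ∧ ∀ u : R4, ‖u‖ = 1 → |φ u - q u| ≤ ε

theorem nearSettles_exp {θ : ℝ} (h : Rated p θ) (g : R4) :
    NearSettles p θ fun u => Real.exp ⟪g, u⟫ := by
  intro ε hε
  obtain ⟨N, hN⟩ : ∃ N, ∑' n, ‖g‖ ^ (n + N) / ((n + N).factorial : ℝ) ≤ ε := by
    exact ((tendsto_sum_nat_add fun n => ‖g‖ ^ n / (n.factorial : ℝ)).eventually_le_const hε).exists
  refine ⟨fun u => ∑ n ∈ Finset.range N, (n.factorial : ℝ)⁻¹ * ⟪g, u⟫ ^ n, by fun_prop, ?_,
    fun u hu => ?_⟩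
  · clear hN
    induction N with
    | zero =>
      simp only [Finset.range_zero, Finset.sum_empty]
      exact settles_const h 0
    | succ N ih =>
      simp only [Finset.sum_range_succ]
      exact ih.add ((settles_inner_pow h g N).const_mul _)
  · have hs := Real.summable_pow_div_factorial ⟪g, u⟫
    have hg := (summable_nat_add_iff N).2 (Real.summable_pow_div_factorial ‖g‖)
    have hexp : Real.exp ⟪g, u⟫ = ∑' n, ⟪g, u⟫ ^ n / (n.factorial : ℝ) := by
      rw [Real.exp_eq_exp_ℝ, NormedSpace.exp_eq_tsum_div]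
    simp only [hexp]
    rw [← hs.sum_add_tsum_nat_add N]
    simp only [div_eq_inv_mul, add_sub_cancel_left] at hN ⊢
    refine le_trans ?_ hN
    rw [← Real.norm_eq_abs]
    refine tsum_of_norm_bounded (by simpa [div_eq_inv_mul] using hg.hasSum) fun n => ?_
    rw [norm_mul, norm_pow, Real.norm_of_nonneg (by positivity)]
    refine mul_le_mul_of_nonneg_left (pow_le_pow_left₀ (norm_nonneg _) ?_ _) (by positivity)
    simpa [hu] using abs_real_inner_le_norm g u

/-- **Density.** -/
theorem nearSettles_continuous {θ : ℝ} (h : Rated p θ) {φ : R4 → ℝ} (hφ : Continuous φ) :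
    NearSettles p θ φ := by
  let ef : R4 → C(sphere (0 : R4) 1, ℝ) := fun g =>
    ⟨fun u => Real.exp ⟪g, (u : R4)⟫, by fun_prop⟩
  set V := Submodule.span ℝ (Set.range ef)
  have hmul : ∀ f₁ f₂, f₁ ∈ V → f₂ ∈ V → f₁ * f₂ ∈ V := fun f₁ f₂ h₁ h₂ => by
    have := Submodule.mul_mem_mul h₁ h₂
    rw [Submodule.span_mul_span] at this
    refine Submodule.span_mono ?_ this
    rintro _ ⟨_, ⟨a, rfl⟩, _, ⟨b, rfl⟩, rfl⟩
    exact ⟨a + b, ContinuousMap.ext fun u => by simp [ef, inner_add_left, Real.exp_add]⟩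
  have hone : (1 : C(sphere (0 : R4) 1, ℝ)) ∈ V :=
    Submodule.subset_span ⟨0, ContinuousMap.ext fun u => by simp [ef]⟩
  have hsep : (V.toSubalgebra hone hmul).SeparatesPoints := fun u v huv => by
    refine ⟨_, ⟨ef ((u : R4) - v), Submodule.subset_span ⟨_, rfl⟩, rfl⟩, fun h => huv ?_⟩
    have h' : ⟪(u : R4) - v, (u : R4)⟫ = ⟪(u : R4) - v, (v : R4)⟫ := Real.exp_injective h
    refine Subtype.ext (sub_eq_zero.1 (inner_self_eq_zero (𝕜 := ℝ).1 ?_))
    rw [inner_sub_right, h', sub_self]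
  have hrepr : ∀ f ∈ V, ∃ q : R4 → ℝ, (∀ u : sphere (0 : R4) 1, q u = f u) ∧ NearSettles p θ q := by
    intro f hf
    induction hf using Submodule.span_induction with
    | mem f hf =>
      obtain ⟨g, rfl⟩ := hf
      exact ⟨_, fun _ => rfl, nearSettles_exp h g⟩
    | zero => exact ⟨0, fun _ => rfl, fun ε hε =>
        ⟨fun _ => 0, continuous_const, settles_const h 0, fun u _ => by simpa using hε.le⟩⟩
    | add f₁ f₂ _ _ h₁ h₂ =>
      obtain ⟨q₁, e₁, t₁⟩ := h₁
      obtain ⟨q₂, e₂, t₂⟩ := h₂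
      refine ⟨fun u => q₁ u + q₂ u, fun u => by simp [e₁, e₂], fun ε hε => ?_⟩
      obtain ⟨a, ca, sa, na⟩ := t₁ (ε / 2) (half_pos hε)
      obtain ⟨b, cb, sb, nb⟩ := t₂ (ε / 2) (half_pos hε)
      refine ⟨_, ca.add cb, sa.add sb, fun u hu => ?_⟩
      rw [Pi.add_apply, add_sub_add_comm]
      exact (abs_add_le _ _).trans ((add_le_add (na u hu) (nb u hu)).trans_eq (add_halves ε))
    | smul a f₁ _ h₁ =>
      obtain ⟨q₁, e₁, t₁⟩ := h₁
      refine ⟨fun u => a * q₁ u, fun u => by simp [e₁], fun ε hε => ?_⟩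
      obtain ⟨b, cb, sb, nb⟩ := t₁ (ε / (|a| + 1)) (by positivity)
      refine ⟨_, cb.const_mul a, sb.const_mul a, fun u hu => ?_⟩
      rw [← mul_sub, abs_mul]
      refine (mul_le_mul (le_add_of_nonneg_right zero_le_one) (nb u hu) (abs_nonneg _)
        (by positivity)).trans_eq (mul_div_cancel₀ _ (by positivity))
  intro ε hε
  obtain ⟨⟨f, hf⟩, hnear⟩ :=
    ContinuousMap.exists_mem_subalgebra_near_continuous_of_separatesPoints _ hsep
      (fun u : sphere (0 : R4) 1 => φ u) (by fun_prop) (ε / 2) (half_pos hε)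
  obtain ⟨q, hq, hqn⟩ := hrepr f hf
  obtain ⟨b, cb, sb, nb⟩ := hqn (ε / 2) (half_pos hε)
  refine ⟨b, cb, sb, fun u hu => ?_⟩
  have h1 := hnear ⟨u, mem_sphere_zero_iff_norm.2 hu⟩
  rw [Real.norm_eq_abs, abs_sub_comm] at h1
  rw [← hq ⟨u, mem_sphere_zero_iff_norm.2 hu⟩] at h1
  exact (abs_sub_le _ (q u) _).trans ((add_le_add h1.le (nb u hu)).trans_eq (add_halves ε))

/-- **The rate at a prime.** -/
theorem rated_gapRate (hp : p.Prime) (h16 : 16 ≤ p) : Rated p (gapRate p) := by
  have hp0 : (0 : ℝ) < p := Nat.cast_pos.2 hp.pos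
  have hcard := card_normHz_prime hp (by omega : p ≠ 2)
  refine ⟨hp.ne_zero, Finset.card_pos.1 (by omega), by rw [gapRate]; positivity,
    gapRate_lt_one h16, fun j hj μ v hv hμ => ?_⟩
  rcases eq_or_ne μ 0 with rfl | h0
  · rw [mul_zero, abs_zero]
    exact gapRate_nonneg p
  have h3 : ¬3 ∣ p := by simpa using SphereHecke.not_three_dvd_pow hp (by omega) 1
  have hinv : avgU j 1 *ᵥ v = v := by
    have e : avgU j 1 *ᵥ (avgU j p *ᵥ v) = avgU j p *ᵥ v := by
      rw [Matrix.mulVec_mulVec, avgU_mul p.coprime_one_left (by norm_num) h3, one_mul]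
    rw [hμ, Matrix.mulVec_smul] at e
    exact smul_right_injective _ (Complex.ofReal_ne_zero.2 h0) e
  have hb := FA.HarmonicTheta.norm_eigen_le hj hp (by omega) hv hinv hμ
  rw [Complex.norm_real, Real.norm_eq_abs] at hb
  have hc : eigenScale p j = ((p : ℝ) + 1)⁻¹ * ((Real.sqrt p)⁻¹) ^ j := by
    rw [eigenScale, hcard]
    push_cast
    field_simp
  have hc0 : 0 < eigenScale p j := by rw [hc]; positivity
  rw [abs_mul, abs_of_pos hc0]
  refine (mul_le_mul_of_nonneg_left hb hc0.le).trans (le_of_eq ?_)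
  rw [hc, gapRate, FA.HarmonicTheta.expo, Real.rpow_add hp0, inv_pow,
    Real.sqrt_eq_rpow, ← Real.rpow_natCast, ← Real.rpow_mul hp0.le,
    show (1 / 2 : ℝ) * (j : ℝ) = (j : ℝ) / 2 by ring]
  have := (Real.rpow_pos_of_pos hp0 ((j : ℝ) / 2)).ne'
  field_simp

end FA.BanachRuziewicz

end
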