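import Fermat.Agent.BanachRuziewicz.Decay
import Mathlib.MeasureTheory.Function.ContinuousMapDense
import Mathlib.MeasureTheory.Function.L2Space

/-!
# The gap on all square integrable functions

The averaging operator is symmetric, so the norms of its iterates on a function form a log-convex
sequence; a rate for all large iterates is then a bound for the first one, and density carries it
to every square integrable function.
-/

set_option autoImplicit false
set_option linter.unusedSectionVars false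
set_option linter.style.haveILetI false

noncomputable section

open Filter Quaternion MeasureTheory
open scoped Topology Quaternion RealInnerProductSpace ENNReal BoundedContinuousFunction
open FA.QuaternionJL FA.QuaternionJLSystems
open FA.SphereHecke (R4 sphereLaw ae_norm_one integrable_sphereLaw star_mem_normHz)

namespace FA.BanachRuziewicz

/-- The square integrable functions on the sphere. -/
abbrev LTwo : Type := Lp ℝ 2 sphereLaw

theorem memLp_continuous {F : R4 → ℝ} (hF : Continuous F) : MemLp F 2 sphereLaw := by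
  obtain ⟨C, hC⟩ := (isCompact_sphere (0 : R4) 1).exists_bound_of_continuousOn hF.continuousOn
  refine MemLp.of_bound hF.aestronglyMeasurable C ?_
  filter_upwards [ae_norm_one] with u hu
  exact hC u (mem_sphere_zero_iff_norm.2 hu)

theorem norm_sq_LTwo (F : LTwo) : ‖F‖ ^ 2 = ∫ u, F u ^ 2 ∂sphereLaw := by
  rw [← real_inner_self_eq_norm_sq, L2.inner_def]
  simp [pow_two]

theorem norm_LTwo_le {F : LTwo} {C : ℝ} (hC : 0 ≤ C) (h : ∀ᵐ u ∂sphereLaw, |F u| ≤ C) :
    ‖F‖ ≤ C := by
  simpa [measureUnivNNReal] using Lp.norm_le_of_ae_bound (f := F) hC h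

/-- The constant function. -/
def oneL : LTwo := (memLp_const (1 : ℝ)).toLp fun _ => (1 : ℝ)

theorem coeFn_oneL : (oneL : R4 → ℝ) =ᵐ[sphereLaw] fun _ => 1 := MemLp.coeFn_toLp _

theorem inner_oneL (F : LTwo) : ⟪oneL, F⟫ = ∫ u, F u ∂sphereLaw := by
  rw [L2.inner_def]
  refine integral_congr_ae ?_
  filter_upwards [coeFn_oneL] with u hu
  simp [hu]

theorem inner_oneL_self : ⟪oneL, oneL⟫ = 1 := by
  rw [inner_oneL, integral_congr_ae coeFn_oneL]
  simp

/-- The part of mean zero. -/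
def centred (F : LTwo) : LTwo := F - ⟪oneL, F⟫ • oneL

theorem inner_oneL_centred (F : LTwo) : ⟪oneL, centred F⟫ = 0 := by
  rw [centred, inner_sub_right, real_inner_smul_right, inner_oneL_self, mul_one, sub_self]

theorem coeFn_centred (F : LTwo) :
    (centred F : R4 → ℝ) =ᵐ[sphereLaw] fun u => F u - ∫ v, F v ∂sphereLaw := by
  filter_upwards [Lp.coeFn_sub F (⟪oneL, F⟫ • oneL), Lp.coeFn_smul ⟪oneL, F⟫ oneL, coeFn_oneL]
    with u h1 h2 h3
  rw [centred, h1, Pi.sub_apply, h2, Pi.smul_apply, h3, smul_eq_mul, mul_one, inner_oneL]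

open scoped Classical in
/-- Composition with a rotation. -/
def rotL (p : ℕ) (x : ℍ[ℚ]) : LTwo →L[ℝ] LTwo :=
  if h : MeasurePreserving (rotFun p x) sphereLaw sphereLaw then
    (Lp.compMeasurePreservingₗᵢ ℝ (rotFun p x) h).toContinuousLinearMap
  else 0

/-- The averaging operator on square integrable functions. -/
def avgL (p : ℕ) : LTwo →L[ℝ] LTwo := ((normHz p).card : ℝ)⁻¹ • ∑ x ∈ normHz p, rotL p x

variable {p : ℕ}

theorem coeFn_rotL (hp : p ≠ 0) {x : ℍ[ℚ]} (hx : x ∈ normHz p) (F : LTwo) :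
    (rotL p x F : R4 → ℝ) =ᵐ[sphereLaw] fun u => F (rotFun p x u) := by
  rw [rotL, dif_pos (measurePreserving_rotFun hp hx)]
  exact Lp.coeFn_compMeasurePreserving F (measurePreserving_rotFun hp hx)

theorem norm_rotL (hp : p ≠ 0) {x : ℍ[ℚ]} (hx : x ∈ normHz p) (F : LTwo) : ‖rotL p x F‖ = ‖F‖ := by
  rw [rotL, dif_pos (measurePreserving_rotFun hp hx)]
  exact LinearIsometry.norm_map _ F

theorem rotL_star (hp : p ≠ 0) {x : ℍ[ℚ]} (hx : x ∈ normHz p) (F : LTwo) :
    rotL p x (rotL p (star x) F) = F := by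
  refine Lp.ext ?_
  filter_upwards [coeFn_rotL hp hx (rotL p (star x) F),
    (measurePreserving_rotFun hp hx).quasiMeasurePreserving.ae
      (coeFn_rotL hp (star_mem_normHz hx) F)] with u h1 h2
  rw [h1, h2, rotFun_star hp hx]

theorem inner_rotL (hp : p ≠ 0) {x : ℍ[ℚ]} (hx : x ∈ normHz p) (F G : LTwo) :
    ⟪rotL p x F, G⟫ = ⟪F, rotL p (star x) G⟫ := by
  conv_lhs => rw [← rotL_star hp hx G]
  rw [rotL, dif_pos (measurePreserving_rotFun hp hx)]
  exact LinearIsometry.inner_map_map _ _ _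

theorem avgL_apply (F : LTwo) :
    avgL p F = ((normHz p).card : ℝ)⁻¹ • ∑ x ∈ normHz p, rotL p x F := by
  simp [avgL]

theorem inner_avgL (hp : p ≠ 0) (F G : LTwo) : ⟪avgL p F, G⟫ = ⟪F, avgL p G⟫ := by
  rw [avgL_apply, avgL_apply, real_inner_smul_left, real_inner_smul_right, sum_inner, inner_sum]
  congr 1
  exact Finset.sum_nbij' star star (fun x hx => star_mem_normHz hx)
    (fun x hx => star_mem_normHz hx) (fun x _ => star_star x) (fun x _ => star_star x)
    fun x hx => inner_rotL hp hx F G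

theorem coeFn_avgL (hp : p ≠ 0) (F : LTwo) :
    (avgL p F : R4 → ℝ) =ᵐ[sphereLaw] avgOp p F := by
  have h := (ae_all_iff (ι := normHz p)).2 fun x => coeFn_rotL hp x.2 F
  rw [avgL_apply]
  filter_upwards [Lp.coeFn_smul ((normHz p).card : ℝ)⁻¹ (∑ x ∈ normHz p, rotL p x F),
    Lp.coeFn_finsetSum (normHz p) fun x => rotL p x F, h] with u h1 h2 h3
  rw [h1, Pi.smul_apply, h2, Finset.sum_apply, smul_eq_mul, avgOp_apply]
  exact congrArg _ (Finset.sum_congr rfl fun x hx => h3 ⟨x, hx⟩)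

theorem avgOp_congr_ae (hp : p ≠ 0) {F G : R4 → ℝ} (h : F =ᵐ[sphereLaw] G) :
    avgOp p F =ᵐ[sphereLaw] avgOp p G := by
  have := (ae_all_iff (ι := normHz p)).2 fun x =>
    (measurePreserving_rotFun hp x.2).quasiMeasurePreserving.ae h
  filter_upwards [this] with u hu
  rw [avgOp_apply, avgOp_apply]
  exact congrArg _ (Finset.sum_congr rfl fun x hx => hu ⟨x, hx⟩)

theorem coeFn_avgL_pow (hp : p ≠ 0) (F : LTwo) (r : ℕ) :
    (((avgL p)^[r] F : LTwo) : R4 → ℝ) =ᵐ[sphereLaw] (avgOp p)^[r] F := by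
  induction r with
  | zero => rfl
  | succ r ih =>
    rw [Function.iterate_succ_apply', Function.iterate_succ_apply']
    exact (coeFn_avgL hp _).trans (avgOp_congr_ae hp ih)

theorem avgL_oneL (hp : p ≠ 0) (hne : (normHz p).Nonempty) : avgL p oneL = oneL := by
  refine Lp.ext ((coeFn_avgL hp oneL).trans
    ((avgOp_congr_ae hp coeFn_oneL).trans (EventuallyEq.trans ?_ coeFn_oneL.symm)))
  exact Eventually.of_forall fun u => avgOp_const hne 1 1 u

theorem iterate_centred (hp : p ≠ 0) (hne : (normHz p).Nonempty) (F : LTwo) (r : ℕ) :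
    (avgL p)^[r] (centred F) = centred ((avgL p)^[r] F) := by
  induction r with
  | zero => rfl
  | succ r ih =>
    rw [Function.iterate_succ_apply', Function.iterate_succ_apply', ih, centred, centred, map_sub,
      map_smul, avgL_oneL hp hne, ← inner_avgL hp oneL, avgL_oneL hp hne]

theorem mean_iterate (hp : p ≠ 0) (hne : (normHz p).Nonempty) (F : LTwo) (r : ℕ) :
    ⟪oneL, (avgL p)^[r] F⟫ = ⟪oneL, F⟫ := by
  induction r with
  | zero => rfl
  | succ r ih =>
    rw [Function.iterate_succ_apply', ← inner_avgL hp, avgL_oneL hp hne, ih]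

/-- **A log-convex sequence with a rate starts at that rate.** -/
theorem first_le_of_logConvex {a : ℕ → ℝ} {C θ : ℝ} (ha : ∀ m, 0 ≤ a m)
    (hc : ∀ m, a (m + 1) ^ 2 ≤ a m * a (m + 2)) (hθ : 0 < θ) (hb : ∀ m, a m ≤ C * θ ^ m) :
    a 1 ≤ θ * a 0 := by
  by_contra! h
  have h0 : 0 < a 0 := (ha 0).lt_of_ne fun e => by
    have := hc 0
    rw [← e, zero_mul] at this
    rw [← e, mul_zero] at h
    exact absurd (pow_eq_zero_iff two_ne_zero |>.1 (le_antisymm this (sq_nonneg _))) h.ne'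
  set ρ : ℝ := a 1 / a 0 with hρdef
  have hρ : θ < ρ := by rwa [hρdef, lt_div_iff₀ h0]
  have hρ0 : 0 < ρ := hθ.trans hρ
  have key : ∀ m, 0 < a m ∧ ρ * a m ≤ a (m + 1) := fun m => by
    induction m with
    | zero => exact ⟨h0, (div_mul_cancel₀ _ h0.ne').le⟩
    | succ m ih =>
      have hpos : 0 < a (m + 1) := (mul_pos hρ0 ih.1).trans_le ih.2
      refine ⟨hpos, le_of_mul_le_mul_left ?_ ih.1⟩
      calc a m * (ρ * a (m + 1)) = ρ * a m * a (m + 1) := by ring
        _ ≤ a (m + 1) * a (m + 1) := mul_le_mul_of_nonneg_right ih.2 hpos.le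
        _ = a (m + 1) ^ 2 := (pow_two _).symm
        _ ≤ a m * a (m + 2) := hc m
  have hgrow : ∀ m, ρ ^ m * a 0 ≤ a m := fun m => by
    induction m with
    | zero => simp
    | succ m ih =>
      rw [pow_succ', mul_assoc]
      exact (mul_le_mul_of_nonneg_left ih hρ0.le).trans (key m).2
  obtain ⟨m, hm⟩ := ((tendsto_pow_atTop_atTop_of_one_lt ((one_lt_div hθ).2 hρ)).eventually_gt_atTop
    (C / a 0)).exists
  rw [div_pow, div_lt_div_iff₀ h0 (pow_pos hθ m)] at hm
  linarith [hb m, hgrow m]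

theorem exists_cLp_bound {θ : ℝ} (h : Rated p θ) {q : R4 → ℝ} (hq : Continuous q)
    (hs : Settles p θ q) :
    ∃ C, ∀ r, ‖(avgL p)^[r] (centred ((memLp_continuous hq).toLp q))‖ ≤ C * θ ^ r := by
  obtain ⟨C, hC⟩ := exists_settle_bound h hq hs
  obtain ⟨u, hu⟩ : ∃ u : R4, ‖u‖ = 1 := ae_norm_one.exists
  refine ⟨C, fun r => ?_⟩
  have hC0 : 0 ≤ C * θ ^ r := (abs_nonneg _).trans (hC r u hu)
  have hcongr : ∀ (s : ℕ), (avgOp p)^[s] ((memLp_continuous hq).toLp q : R4 → ℝ) =ᵐ[sphereLaw]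
      (avgOp p)^[s] q := fun s => by
    induction s with
    | zero => exact MemLp.coeFn_toLp _
    | succ s ih =>
      rw [Function.iterate_succ_apply', Function.iterate_succ_apply']
      exact avgOp_congr_ae h.ne_zero ih
  have hm : ∫ v, (((avgL p)^[r] ((memLp_continuous hq).toLp q) : LTwo) : R4 → ℝ) v ∂sphereLaw =
      ∫ v, q v ∂sphereLaw := by
    rw [← inner_oneL, mean_iterate h.ne_zero h.nonempty, inner_oneL]
    exact integral_congr_ae (MemLp.coeFn_toLp _)
  rw [iterate_centred h.ne_zero h.nonempty]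
  refine norm_LTwo_le hC0 ?_
  filter_upwards [coeFn_centred ((avgL p)^[r] ((memLp_continuous hq).toLp q)),
    coeFn_avgL_pow h.ne_zero ((memLp_continuous hq).toLp q) r, hcongr r, ae_norm_one]
    with v h1 h2 h3 hv
  rw [h1, hm, h2, h3]
  exact hC r v hv

theorem logConvex_iterate (hp : p ≠ 0) (F : LTwo) (m : ℕ) :
    ‖(avgL p)^[m + 1] F‖ ^ 2 ≤ ‖(avgL p)^[m] F‖ * ‖(avgL p)^[m + 2] F‖ := by
  rw [← real_inner_self_eq_norm_sq]
  nth_rw 1 [Function.iterate_succ_apply']
  rw [inner_avgL hp, ← Function.iterate_succ_apply' (avgL p) (m + 1)]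
  exact real_inner_le_norm _ _

theorem exists_near_LTwo {θ : ℝ} (h : Rated p θ) (F : LTwo) {ε : ℝ} (hε : 0 < ε) :
    ∃ (q : R4 → ℝ) (hq : Continuous q), Settles p θ q ∧
      ‖F - (memLp_continuous hq).toLp q‖ ≤ ε := by
  obtain ⟨b, hb⟩ := (BoundedContinuousFunction.toLp_denseRange ℝ sphereLaw ℝ
    (p := 2) ENNReal.ofNat_ne_top).exists_dist_lt F (half_pos hε)
  obtain ⟨q, hq, hs, hn⟩ := nearSettles_continuous h b.continuous (ε / 2) (half_pos hε)
  refine ⟨q, hq, hs, ?_⟩
  rw [dist_eq_norm] at hb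
  refine (norm_sub_le_norm_sub_add_norm_sub F (BoundedContinuousFunction.toLp 2 sphereLaw ℝ b)
    _).trans ((add_le_add hb.le (norm_LTwo_le (half_pos hε).le ?_)).trans_eq (add_halves ε))
  filter_upwards [Lp.coeFn_sub (BoundedContinuousFunction.toLp 2 sphereLaw ℝ b)
    ((memLp_continuous hq).toLp q), BoundedContinuousFunction.coeFn_toLp 2 sphereLaw ℝ b,
    MemLp.coeFn_toLp (memLp_continuous hq), ae_norm_one] with u h1 h2 h3 hu
  rw [h1, Pi.sub_apply, h2, h3]
  exact hn u hu

/-- **The gap.** -/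
theorem norm_avgL_le_rated {θ : ℝ} (h : Rated p θ) (F : LTwo) :
    ‖avgL p (centred F)‖ ≤ θ * ‖centred F‖ := by
  have hθ : 0 < θ := h.pos
  have hcl : IsClosed {G : LTwo | ‖avgL p (centred G)‖ ≤ θ * ‖centred G‖} := by
    refine isClosed_le ?_ ?_ <;> simp only [centred] <;> fun_prop
  have hmem : F ∈ closure {G : LTwo | ‖avgL p (centred G)‖ ≤ θ * ‖centred G‖} := by
    refine Metric.mem_closure_iff.2 fun ε hε => ?_
    obtain ⟨q, hq, hs, hn⟩ := exists_near_LTwo h F (half_pos hε)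
    refine ⟨_, ?_, by rw [dist_eq_norm]; exact hn.trans_lt (half_lt_self hε)⟩
    obtain ⟨C, hC⟩ := exists_cLp_bound h hq hs
    exact first_le_of_logConvex
      (a := fun m => ‖(avgL p)^[m] (centred ((memLp_continuous hq).toLp q))‖)
      (fun m => norm_nonneg _) (logConvex_iterate h.ne_zero _) hθ hC
  rw [hcl.closure_eq] at hmem
  exact hmem

/-- **The gap for the iterates.** -/
theorem norm_iterate_le_rated {θ : ℝ} (h : Rated p θ) (F : LTwo) (r : ℕ) :
    ‖(avgL p)^[r] (centred F)‖ ≤ θ ^ r * ‖centred F‖ := by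
  induction r with
  | zero => simp
  | succ r ih =>
    rw [Function.iterate_succ_apply', iterate_centred h.ne_zero h.nonempty]
    refine (norm_avgL_le_rated h _).trans ?_
    rw [← iterate_centred h.ne_zero h.nonempty, pow_succ', mul_assoc]
    exact mul_le_mul_of_nonneg_left ih (h.pos.le)

/-- **Some rotation moves a function.** -/
theorem exists_moved_rated {θ : ℝ} (h : Rated p θ) (F : LTwo) :
    ∃ x ∈ normHz p, (1 - θ) * ‖centred F‖ ≤ ‖rotL p x F - F‖ := by
  have hcard : (0 : ℝ) < (normHz p).card := Nat.cast_pos.2 h.nonempty.card_pos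
  have h1 : (normHz p).card • ((1 - θ) * ‖centred F‖) ≤
      ∑ x ∈ normHz p, ‖rotL p x F - F‖ := by
    have e : avgL p F - F = avgL p (centred F) - centred F := by
      rw [centred, map_sub, map_smul, avgL_oneL h.ne_zero h.nonempty, sub_sub_sub_cancel_right]
    have h2 : (1 - θ) * ‖centred F‖ ≤ ‖avgL p F - F‖ := by
      rw [e, sub_mul, one_mul, norm_sub_rev]
      linarith [norm_avgL_le_rated h F,
        norm_le_norm_add_norm_sub' (centred F) (avgL p (centred F))]
    have h3 : ((normHz p).card : ℝ) • (avgL p F - F) = ∑ x ∈ normHz p, (rotL p x F - F) := by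
      rw [Finset.sum_sub_distrib, Finset.sum_const, smul_sub, avgL_apply, smul_smul,
        mul_inv_cancel₀ hcard.ne', one_smul, Nat.cast_smul_eq_nsmul]
    calc (normHz p).card • ((1 - θ) * ‖centred F‖)
        = ((normHz p).card : ℝ) * ((1 - θ) * ‖centred F‖) := nsmul_eq_mul _ _
      _ ≤ ((normHz p).card : ℝ) * ‖avgL p F - F‖ := mul_le_mul_of_nonneg_left h2 hcard.le
      _ = ‖∑ x ∈ normHz p, (rotL p x F - F)‖ := by
          rw [← h3, norm_smul, Real.norm_natCast]
      _ ≤ _ := norm_sum_le _ _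
  exact Finset.exists_le_of_sum_le (Finset.card_pos.1 (Nat.cast_pos.1 hcard))
    (by rwa [Finset.sum_const])

/-- **The gap for the iterates, at a prime.** -/
theorem norm_iterate_le (hp : p.Prime) (h16 : 16 ≤ p) (F : LTwo) (r : ℕ) :
    ‖(avgL p)^[r] (centred F)‖ ≤ gapRate p ^ r * ‖centred F‖ :=
  norm_iterate_le_rated (rated_gapRate hp h16) F r

/-- **Some rotation moves a function, at a prime.** -/
theorem exists_moved (hp : p.Prime) (h16 : 16 ≤ p) (F : LTwo) :
    ∃ x ∈ normHz p, (1 - gapRate p) * ‖centred F‖ ≤ ‖rotL p x F - F‖ :=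
  exists_moved_rated (rated_gapRate hp h16) F

theorem centred_toLp {f : R4 → ℝ} (hf : MemLp f 2 sphereLaw) :
    ‖centred (hf.toLp f)‖ ^ 2 = ∫ u, (f u - ∫ v, f v ∂sphereLaw) ^ 2 ∂sphereLaw := by
  rw [norm_sq_LTwo]
  refine integral_congr_ae ?_
  filter_upwards [coeFn_centred (hf.toLp f), hf.coeFn_toLp] with u h1 h2
  rw [h1, h2, integral_congr_ae hf.coeFn_toLp]

theorem rotL_toLp (hp : p ≠ 0) {x : ℍ[ℚ]} (hx : x ∈ normHz p) {f : R4 → ℝ}
    (hf : MemLp f 2 sphereLaw) :
    ‖rotL p x (hf.toLp f) - hf.toLp f‖ ^ 2 =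
      ∫ u, (f (rotFun p x u) - f u) ^ 2 ∂sphereLaw := by
  rw [norm_sq_LTwo]
  refine integral_congr_ae ?_
  filter_upwards [Lp.coeFn_sub (rotL p x (hf.toLp f)) (hf.toLp f), coeFn_rotL hp hx (hf.toLp f),
    (measurePreserving_rotFun hp hx).quasiMeasurePreserving.ae hf.coeFn_toLp, hf.coeFn_toLp]
    with u h1 h2 h3 h4
  rw [h1, Pi.sub_apply, h2, h3, h4]

theorem iterate_toLp (hp : p.Prime) (h5 : 5 ≤ p) {f : R4 → ℝ} (hf : MemLp f 2 sphereLaw) (r : ℕ) :
    ‖(avgL p)^[r] (centred (hf.toLp f))‖ ^ 2 =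
      ∫ u, ((avgOp p)^[r] f u - ∫ v, f v ∂sphereLaw) ^ 2 ∂sphereLaw := by
  have hcongr : ∀ s : ℕ, (avgOp p)^[s] (hf.toLp f : R4 → ℝ) =ᵐ[sphereLaw]
      (avgOp p)^[s] f := fun s => by
    induction s with
    | zero => exact hf.coeFn_toLp
    | succ s ih =>
      rw [Function.iterate_succ_apply', Function.iterate_succ_apply']
      exact avgOp_congr_ae hp.ne_zero ih
  have hne : (normHz p).Nonempty := Finset.card_pos.1 (by
    rw [card_normHz_prime hp (by omega)]
    omega)
  rw [iterate_centred hp.ne_zero hne, norm_sq_LTwo]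
  refine integral_congr_ae ?_
  filter_upwards [coeFn_centred ((avgL p)^[r] (hf.toLp f)),
    coeFn_avgL_pow hp.ne_zero (hf.toLp f) r, hcongr r] with u h1 h2 h3
  rw [h1, ← inner_oneL, mean_iterate hp.ne_zero hne, inner_oneL,
    integral_congr_ae hf.coeFn_toLp, h2, h3]

end FA.BanachRuziewicz

end
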