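import Mathlib.Analysis.InnerProductSpace.Dual
import Mathlib.Analysis.LocallyConvex.Separation
import Mathlib.MeasureTheory.Function.AEEqOfIntegral
import Mathlib.MeasureTheory.Function.Floor
import Mathlib.MeasureTheory.Function.L2Space
import Mathlib.MeasureTheory.Integral.Bochner.Set

/-!
# Means invariant under finitely many maps with a spectral gap

Let finitely many automorphisms of a probability space move every square integrable function by a
fixed multiple of its distance to the constants. A finitely additive probability vanishing on null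
sets and invariant under them yields by Hahn and Banach almost invariant densities with nearly the
same value on a given set; their square roots are nearly constant, so it is the given measure.
-/

set_option autoImplicit false
set_option linter.unusedSectionVars false
set_option linter.style.haveILetI false

noncomputable section

open Filter MeasureTheory
open scoped Topology RealInnerProductSpace ENNReal

namespace FA.BanachRuziewicz

variable {Ω : Type*} [MeasurableSpace Ω] {μ : Measure Ω} [IsProbabilityMeasure μ]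

/-- The integrable functions on the sphere. -/
abbrev LOne (μ : Measure Ω) := Lp ℝ 1 μ

theorem norm_LOne (F : LOne μ) : ‖F‖ = ∫ u, |F u| ∂μ := by
  rw [L1.norm_def, ← integral_norm_eq_lintegral_enorm (Lp.aestronglyMeasurable F)]
  rfl

theorem integrable_LOne (F : LOne μ) : Integrable F μ := L1.integrable_coeFn F

theorem memLp_one_LTwo (F : Lp ℝ 2 μ) : MemLp F 1 μ := (Lp.memLp F).mono_exponent (by norm_num)

/-- The inclusion of the square integrable functions. -/
def inclLOne : Lp ℝ 2 μ →L[ℝ] LOne μ :=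
  LinearMap.mkContinuous
    { toFun := fun F => (memLp_one_LTwo F).toLp F
      map_add' := fun F G => Lp.ext (by
        filter_upwards [(memLp_one_LTwo (F + G)).coeFn_toLp,
          Lp.coeFn_add ((memLp_one_LTwo F).toLp F) ((memLp_one_LTwo G).toLp G),
          (memLp_one_LTwo F).coeFn_toLp, (memLp_one_LTwo G).coeFn_toLp, Lp.coeFn_add F G]
          with u h1 h2 h3 h4 h5
        rw [h1, h2, Pi.add_apply, h3, h4, h5, Pi.add_apply])
      map_smul' := fun c F => Lp.ext (by
        filter_upwards [(memLp_one_LTwo (c • F)).coeFn_toLp,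
          Lp.coeFn_smul c ((memLp_one_LTwo F).toLp F), (memLp_one_LTwo F).coeFn_toLp,
          Lp.coeFn_smul c F] with u h1 h2 h3 h4
        rw [RingHom.id_apply, h1, h2, Pi.smul_apply, h3, h4, Pi.smul_apply]) }
    1 fun F => by
      rw [one_mul, LinearMap.coe_mk, AddHom.coe_mk, Lp.norm_toLp, Lp.norm_def]
      exact ENNReal.toReal_mono (Lp.eLpNorm_ne_top F)
        (eLpNorm_le_eLpNorm_of_exponent_le (by norm_num) (Lp.aestronglyMeasurable F))

theorem coeFn_inclLOne (F : Lp ℝ 2 μ) : (inclLOne F : Ω → ℝ) =ᵐ[μ] F :=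
  (memLp_one_LTwo F).coeFn_toLp

/-- The indicator of a set. -/
def indL {s : Set Ω} (hs : MeasurableSet s) : LOne μ :=
  indicatorConstLp 1 hs (measure_ne_top μ s) (1 : ℝ)

theorem coeFn_indL {s : Set Ω} (hs : MeasurableSet s) :
    (indL (μ := μ) hs : Ω → ℝ) =ᵐ[μ] s.indicator fun _ => 1 := indicatorConstLp_coeFn

theorem norm_indL {s : Set Ω} (hs : MeasurableSet s) : ‖indL (μ := μ) hs‖ = μ.real s := by
  rw [indL, norm_indicatorConstLp one_ne_zero ENNReal.one_ne_top]
  simp

/-- **A functional on the integrable functions has a bounded density on the sets.** -/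
theorem exists_density (φ : LOne μ →L[ℝ] ℝ) :
    ∃ h : Ω → ℝ, Measurable h ∧ (∀ u, |h u| ≤ ‖φ‖) ∧
      ∀ (s : Set Ω) (hs : MeasurableSet s), φ (indL hs) = ∫ u in s, h u ∂μ := by
  set g : Lp ℝ 2 μ := (InnerProductSpace.toDual ℝ (Lp ℝ 2 μ)).symm (φ.comp inclLOne)
  have hg : Integrable g μ := memLp_one_iff_integrable.1 (memLp_one_LTwo g)
  have hset : ∀ (s : Set Ω) (hs : MeasurableSet s), φ (indL hs) = ∫ u in s, g u ∂μ := by
    intro s hs
    rw [← L2.inner_indicatorConstLp_one hs (measure_ne_top μ s) g, real_inner_comm,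
      InnerProductSpace.toDual_symm_apply]
    refine congrArg φ (Lp.ext ?_)
    exact (coeFn_indL hs).trans ((coeFn_inclLOne _).trans indicatorConstLp_coeFn).symm
  have hle : ∀ (s : Set Ω) (hs : MeasurableSet s),
      |∫ u in s, g u ∂μ| ≤ ‖φ‖ * μ.real s := fun s hs => by
    rw [← hset s hs, ← norm_indL hs]
    exact φ.le_opNorm _
  have hup : (g : Ω → ℝ) ≤ᵐ[μ] fun _ => ‖φ‖ :=
    ae_le_of_forall_setIntegral_le hg (integrable_const _) fun s hs _ => by
      rw [setIntegral_const, smul_eq_mul, mul_comm]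
      exact (le_abs_self _).trans (hle s hs)
  have hdown : (fun _ => -‖φ‖) ≤ᵐ[μ] (g : Ω → ℝ) :=
    ae_le_of_forall_setIntegral_le (integrable_const _) hg fun s hs _ => by
      rw [setIntegral_const, smul_eq_mul, mul_comm, neg_mul]
      exact neg_le_of_abs_le (hle s hs)
  refine ⟨fun u => max (-‖φ‖) (min ‖φ‖ (g u)), ?_, fun u => ?_, fun s hs => ?_⟩
  · exact measurable_const.max (measurable_const.min (Lp.stronglyMeasurable g).measurable)
  · exact abs_le.2 ⟨le_max_left _ _, max_le (neg_le_self (norm_nonneg φ)) (min_le_left _ _)⟩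
  · rw [hset s hs]
    refine setIntegral_congr_ae hs ?_
    filter_upwards [hup, hdown] with u h1 h2 _
    rw [min_eq_right h1, max_eq_right h2]

/-- **Simple approximation of a bounded function.** -/
theorem exists_simple_near {h : Ω → ℝ} (hm : Measurable h) {M : ℝ} (hM : ∀ u, |h u| ≤ M) {δ : ℝ}
    (hδ : 0 < δ) : ∃ q : SimpleFunc Ω ℝ, ∀ u, |q u - h u| ≤ δ := by
  have hg : Measurable fun u => ⌊h u / δ⌋ := Int.measurable_floor.comp (hm.div_const δ)
  refine ⟨⟨fun u => δ * ⌊h u / δ⌋,
    fun y => ((measurable_of_countable fun n : ℤ => δ * (n : ℝ)).comp hg)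
      (measurableSet_singleton y), ?_⟩, fun u => ?_⟩
  · refine ((Set.finite_Icc ⌊-M / δ⌋ ⌊M / δ⌋).image fun n : ℤ => δ * (n : ℝ)).subset ?_
    rintro _ ⟨u, rfl⟩
    have := abs_le.1 (hM u)
    exact ⟨⌊h u / δ⌋, ⟨Int.floor_mono (div_le_div_of_nonneg_right this.1 hδ.le),
      Int.floor_mono (div_le_div_of_nonneg_right this.2 hδ.le)⟩, rfl⟩
  · show |δ * (⌊h u / δ⌋ : ℝ) - h u| ≤ δ
    have h1 := Int.floor_le (h u / δ)
    have h2 := Int.lt_floor_add_one (h u / δ)
    rw [le_div_iff₀' hδ] at h1
    rw [div_lt_iff₀' hδ] at h2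
    rw [abs_le]
    constructor <;> linarith

/-- A finitely additive probability on the measurable sets vanishing on null sets and invariant
under given maps. -/
structure MeanInvariant {ι : Type*} (μ : Measure Ω) (R : ι → Ω ≃ᵐ Ω) (m : Set Ω → ℝ) : Prop where
  nonneg : ∀ s, MeasurableSet s → 0 ≤ m s
  univ : m Set.univ = 1
  union : ∀ s t, MeasurableSet s → MeasurableSet t → Disjoint s t → m (s ∪ t) = m s + m t
  null : ∀ s, MeasurableSet s → μ s = 0 → m s = 0
  invariant : ∀ i, ∀ s, MeasurableSet s → m (R i ⁻¹' s) = m s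

/-- The mean of a simple function. -/
def meanI (m : Set Ω → ℝ) (q : SimpleFunc Ω ℝ) : ℝ :=
  SimpleFunc.setToSimpleFunc (fun s => m s • ContinuousLinearMap.id ℝ ℝ) q

theorem meanI_eq (m : Set Ω → ℝ) (q : SimpleFunc Ω ℝ) :
    meanI m q = ∑ y ∈ q.range, m (q ⁻¹' {y}) * y := by
  simp [meanI, SimpleFunc.setToSimpleFunc]

variable {ι : Type*} {R : ι → Ω ≃ᵐ Ω} {m : Set Ω → ℝ}

theorem MeanInvariant.finMeasAdditive (hm : MeanInvariant μ R m) :
    FinMeasAdditive μ fun s => m s • ContinuousLinearMap.id ℝ ℝ :=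
  fun s t hs ht _ _ hst => by
    show m (s ∪ t) • _ = m s • _ + m t • _
    rw [hm.union s t hs ht hst, add_smul]

theorem MeanInvariant.meanI_add (hm : MeanInvariant μ R m) (f g : SimpleFunc Ω ℝ) :
    meanI m (f + g) = meanI m f + meanI m g :=
  SimpleFunc.setToSimpleFunc_add _ hm.finMeasAdditive (SimpleFunc.integrable_of_isFiniteMeasure f)
    (SimpleFunc.integrable_of_isFiniteMeasure g)

theorem MeanInvariant.meanI_sub (hm : MeanInvariant μ R m) (f g : SimpleFunc Ω ℝ) :
    meanI m (f - g) = meanI m f - meanI m g :=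
  SimpleFunc.setToSimpleFunc_sub _ hm.finMeasAdditive (SimpleFunc.integrable_of_isFiniteMeasure f)
    (SimpleFunc.integrable_of_isFiniteMeasure g)

theorem MeanInvariant.meanI_smul (hm : MeanInvariant μ R m) (c : ℝ) (f : SimpleFunc Ω ℝ) :
    meanI m (c • f) = c * meanI m f :=
  SimpleFunc.setToSimpleFunc_smul_real _ hm.finMeasAdditive c
    (SimpleFunc.integrable_of_isFiniteMeasure f)

theorem MeanInvariant.meanI_const (hm : MeanInvariant μ R m) (c : ℝ) :
    meanI m (SimpleFunc.const Ω c) = c := by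
  rw [meanI, SimpleFunc.setToSimpleFunc_const _
    (by rw [hm.null ∅ MeasurableSet.empty measure_empty, zero_smul])]
  simp [hm.univ]

theorem MeanInvariant.meanI_sum (hm : MeanInvariant μ R m) {ι : Type*} (t : Finset ι)
    (f : ι → SimpleFunc Ω ℝ) : meanI m (∑ i ∈ t, f i) = ∑ i ∈ t, meanI m (f i) := by
  classical
  induction t using Finset.induction_on with
  | empty => simpa using hm.meanI_const 0
  | insert a s ha ih => rw [Finset.sum_insert ha, Finset.sum_insert ha, hm.meanI_add, ih]

theorem MeanInvariant.meanI_nonneg (hm : MeanInvariant μ R m) {q : SimpleFunc Ω ℝ}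
    (h : ∀ᵐ u ∂μ, 0 ≤ q u) : 0 ≤ meanI m q := by
  rw [meanI_eq]
  refine Finset.sum_nonneg fun y _ => ?_
  rcases le_or_gt 0 y with hy | hy
  · exact mul_nonneg (hm.nonneg _ (q.measurableSet_fiber y)) hy
  · rw [hm.null _ (q.measurableSet_fiber y) ?_, zero_mul]
    refine measure_mono_null (fun u hu => ?_) (ae_iff.1 h)
    simp only [Set.mem_preimage, Set.mem_singleton_iff] at hu
    simpa [hu] using hy

theorem MeanInvariant.meanI_comp (hm : MeanInvariant μ R m) (i : ι) (q : SimpleFunc Ω ℝ) :
    meanI m (q.comp (R i) (R i).measurable) = meanI m q := by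
  have hr : (q.comp (R i) (R i).measurable).range = q.range := by
    ext y
    simp only [SimpleFunc.mem_range, SimpleFunc.coe_comp, Set.mem_range, Function.comp_apply]
    exact ⟨fun ⟨u, hu⟩ => ⟨_, hu⟩, fun ⟨u, hu⟩ => by
      obtain ⟨v, rfl⟩ := (R i).surjective u
      exact ⟨v, hu⟩⟩
  rw [meanI_eq, meanI_eq, hr]
  refine Finset.sum_congr rfl fun y _ => ?_
  rw [SimpleFunc.coe_comp, Set.preimage_comp, hm.invariant i _ (q.measurableSet_fiber y)]

theorem MeanInvariant.meanI_comp_symm (hm : MeanInvariant μ R m) (i : ι) (q : SimpleFunc Ω ℝ) :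
    meanI m (q.comp (R i).symm (R i).symm.measurable) = meanI m q := by
  refine (hm.meanI_comp i _).symm.trans (congrArg _ (SimpleFunc.ext fun u => ?_))
  simp

/-- The densities. -/
def IsDensity (f : Lp ℝ 1 μ) : Prop := (∀ᵐ u ∂μ, 0 ≤ f u) ∧ ∫ u, f u ∂μ = 1

/-- Composition with a map. -/
def pullLOne (e : Ω ≃ᵐ Ω) (he : MeasurePreserving e μ μ) : Lp ℝ 1 μ →L[ℝ] Lp ℝ 1 μ :=
  (Lp.compMeasurePreservingₗᵢ ℝ e he).toContinuousLinearMap

theorem coeFn_pullLOne (e : Ω ≃ᵐ Ω) (he : MeasurePreserving e μ μ) (F : Lp ℝ 1 μ) :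
    (pullLOne e he F : Ω → ℝ) =ᵐ[μ] fun u => F (e u) :=
  Lp.coeFn_compMeasurePreserving F he

theorem pullLOne_indL (e : Ω ≃ᵐ Ω) (he : MeasurePreserving e μ μ) {s : Set Ω}
    (hs : MeasurableSet s) :
    pullLOne e he (indL (μ := μ) hs) = indL (e.measurable hs) := by
  refine Lp.ext ?_
  filter_upwards [coeFn_pullLOne e he (indL hs), he.quasiMeasurePreserving.ae (coeFn_indL hs),
    coeFn_indL (μ := μ) (e.measurable hs)] with u h1 h2 h3
  rw [h1, h2, h3]
  rfl

/-- **Densities almost invariant with almost the given value.** -/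
theorem exists_almost_invariant [Fintype ι] (hR : ∀ i, MeasurePreserving (R i) μ μ)
    (hm : MeanInvariant μ R m) {A : Set Ω}
    (hA : MeasurableSet A) {ε : ℝ} (hε : 0 < ε) :
    ∃ f : LOne μ, IsDensity f ∧ (∀ i, ‖pullLOne (R i) (hR i) f - f‖ ≤ ε) ∧
      |(∫ u in A, f u ∂μ) - m A| ≤ ε := by
  classical
  by_contra! hcon
  set a := m A with ha
  let Φ : LOne μ → (ι → LOne μ) × ℝ := fun f =>
    (fun i => pullLOne (R i) (hR i) f - f, (∫ u in A, f u ∂μ) - a)
  set t := Φ '' {f | IsDensity f}
  have hconv : Convex ℝ t := by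
    rintro _ ⟨f, hf, rfl⟩ _ ⟨g, hg, rfl⟩ c d hc hd hcd
    have hadd : ((c • f + d • g : LOne μ) : Ω → ℝ) =ᵐ[μ] fun u => c * f u + d * g u := by
      filter_upwards [Lp.coeFn_add (c • f) (d • g), Lp.coeFn_smul c f, Lp.coeFn_smul d g]
        with u h1 h2 h3
      rw [h1, Pi.add_apply, h2, h3, Pi.smul_apply, Pi.smul_apply, smul_eq_mul, smul_eq_mul]
    refine ⟨c • f + d • g, ⟨?_, ?_⟩, ?_⟩
    · filter_upwards [hadd, hf.1, hg.1] with u h1 h2 h3
      rw [h1]
      positivity
    · rw [integral_congr_ae hadd, integral_add ((integrable_LOne f).const_mul c)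
        ((integrable_LOne g).const_mul d), integral_const_mul, integral_const_mul, hf.2, hg.2,
        mul_one, mul_one, hcd]
    · refine Prod.ext (funext fun x => ?_) ?_
      · simp only [Φ, Prod.fst_add, Prod.smul_fst, Pi.add_apply, Pi.smul_apply, map_add, map_smul,
          smul_sub]
        abel
      · simp only [Φ, Prod.snd_add, Prod.smul_snd, smul_eq_mul]
        rw [setIntegral_congr_ae hA (hadd.mono fun u h _ => h),
          integral_add ((integrable_LOne f).const_mul c).integrableOn
            ((integrable_LOne g).const_mul d).integrableOn, integral_const_mul, integral_const_mul]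
        linear_combination a * hcd
  have h0 : (0 : (ι → LOne μ) × ℝ) ∉ closure t := fun h => by
    obtain ⟨_, ⟨f, hf, rfl⟩, hlt⟩ := Metric.mem_closure_iff.1 h ε hε
    rw [dist_zero_left, Prod.norm_def, max_lt_iff] at hlt
    refine (hcon f hf fun x => ?_).not_ge hlt.2.le
    exact (norm_le_pi_norm (fun i => pullLOne (R i) (hR i) f - f) x).trans hlt.1.le
  obtain ⟨ψ, u, hu0, hu⟩ := geometric_hahn_banach_point_closed hconv.closure isClosed_closure h0
  rw [map_zero] at hu0
  set φ : ι → LOne μ →L[ℝ] ℝ := fun x =>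
    ψ.comp ((ContinuousLinearMap.inl ℝ (ι → LOne μ) ℝ).comp
      (ContinuousLinearMap.single ℝ (fun _ : ι => LOne μ) x))
  set s₀ : ℝ := ψ (0, 1)
  have hψ : ∀ (v : ι → LOne μ) (r : ℝ), ψ (v, r) = ∑ x, φ x (v x) + r * s₀ := fun v r => by
    have e : ((v, r) : (ι → LOne μ) × ℝ) =
        ContinuousLinearMap.inl ℝ (ι → LOne μ) ℝ (∑ x, Pi.single x (v x)) +
          r • ((0, 1) : (ι → LOne μ) × ℝ) := by
      rw [Finset.univ_sum_single]
      simp
    rw [e, map_add, map_smul, map_sum, map_sum, smul_eq_mul]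
    rfl
  choose h hmh hbh hsh using fun x => exists_density (φ x)
  set H : Ω → ℝ := fun v =>
    (∑ x, (h x ((R x).symm v) - h x v)) + s₀ * (A.indicator (fun _ => (1 : ℝ)) v - a) with hH
  have hint : ∀ x, Integrable (h x) μ ∧ Integrable (fun v => h x ((R x).symm v)) μ :=
    fun x => ⟨Integrable.of_bound (hmh x).aestronglyMeasurable ‖φ x‖ (Eventually.of_forall (hbh x)),
      Integrable.of_bound ((hmh x).comp (R x).symm.measurable).aestronglyMeasurable
        ‖φ x‖ (Eventually.of_forall fun v => hbh x _)⟩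
  have hI1 : Integrable (A.indicator fun _ => (1 : ℝ)) μ :=
    (integrable_const (1 : ℝ)).indicator hA
  have hI2 : Integrable (fun v => A.indicator (fun _ => (1 : ℝ)) v - a) μ :=
    hI1.sub (integrable_const a)
  have hHint : Integrable H μ :=
    (integrable_finsetSum _ fun x _ => (hint x).2.sub (hint x).1).add (hI2.const_mul s₀)
  have hlow : (fun _ => u) ≤ᵐ[μ] H := by
    refine ae_le_of_forall_setIntegral_le (integrable_const u) hHint fun E hE _ => ?_
    rcases eq_or_ne (μ E) 0 with h0E | h0E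
    · rw [setIntegral_measure_zero _ h0E, setIntegral_measure_zero _ h0E]
    have hr : 0 < μ.real E :=
      ENNReal.toReal_pos h0E (measure_ne_top μ E)
    set f : LOne μ := (μ.real E)⁻¹ • indL hE
    have hfc : (f : Ω → ℝ) =ᵐ[μ]
        fun v => (μ.real E)⁻¹ * E.indicator (fun _ => (1 : ℝ)) v := by
      filter_upwards [Lp.coeFn_smul (μ.real E)⁻¹ (indL hE), coeFn_indL hE] with v h1 h2
      rw [h1, Pi.smul_apply, h2, smul_eq_mul]
    have hf : IsDensity f := by
      refine ⟨?_, ?_⟩
      · filter_upwards [hfc] with v hv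
        rw [hv]
        exact mul_nonneg (inv_nonneg.2 hr.le) (Set.indicator_nonneg (fun _ _ => zero_le_one) v)
      · rw [integral_congr_ae hfc, integral_const_mul, integral_indicator_const _ hE, smul_eq_mul,
          mul_one, inv_mul_cancel₀ hr.ne']
    have hval := hu _ (subset_closure ⟨f, hf, rfl⟩)
    rw [hψ] at hval
    have hx : ∀ x : ι, φ x (pullLOne (R x) (hR x) f - f) =
        (μ.real E)⁻¹ * ∫ v in E, (h x ((R x).symm v) - h x v) ∂μ := fun x => by
      have e : ∫ v in R x ⁻¹' E, h x v ∂μ = ∫ v in E, h x ((R x).symm v) ∂μ := by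
        rw [← (hR x).setIntegral_preimage_emb (R x).measurableEmbedding
          (fun v => h x ((R x).symm v)) E]
        simp only [MeasurableEquiv.symm_apply_apply]
      rw [map_smul, ← smul_sub, map_smul, map_sub, pullLOne_indL, hsh, hsh, e, smul_eq_mul,
        integral_sub (hint x).2.integrableOn (hint x).1.integrableOn]
    have hind : (∫ v in A, f v ∂μ) - a = (μ.real E)⁻¹ *
        ∫ v in E, (A.indicator (fun _ => (1 : ℝ)) v - a) ∂μ := by
      rw [setIntegral_congr_ae hA (hfc.mono fun v hv _ => hv), integral_const_mul,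
        setIntegral_indicator hE, integral_sub hI1.integrableOn (integrable_const a).integrableOn,
        setIntegral_indicator hA, setIntegral_const, setIntegral_const, setIntegral_const,
        Set.inter_comm]
      simp only [smul_eq_mul, mul_one]
      field_simp
    have htot : ∫ v in E, H v ∂μ =
        (∑ x, ∫ v in E, (h x ((R x).symm v) - h x v) ∂μ) +
          s₀ * ∫ v in E, (A.indicator (fun _ => (1 : ℝ)) v - a) ∂μ := by
      have hsum : IntegrableOn (fun v => ∑ x, (h x ((R x).symm v) - h x v)) E μ :=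
        (integrable_finsetSum _ fun x _ => (hint x).2.sub (hint x).1).integrableOn
      rw [hH, integral_add hsum (hI2.const_mul s₀).integrableOn,
        integral_finsetSum (f := fun x v => h x ((R x).symm v) - h x v) _ fun x _ =>
          ((hint x).2.sub (hint x).1).integrableOn,
        integral_const_mul]
    simp only [Finset.sum_congr rfl fun x _ => hx x, hind] at hval
    rw [setIntegral_const, smul_eq_mul, htot]
    rw [← Finset.mul_sum, mul_assoc, ← mul_add, lt_inv_mul_iff₀ hr] at hval
    linarith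
  set δ : ℝ := u / (4 * ((Fintype.card ι : ℝ) + 1))
  have hδ : 0 < δ := by positivity
  choose q hq using fun x => exists_simple_near (hmh x) (hbh x) hδ
  set Q : SimpleFunc Ω ℝ :=
    (∑ x, ((q x).comp (R x).symm (R x).symm.measurable - q x)) +
      s₀ • (SimpleFunc.piecewise A hA (SimpleFunc.const Ω 1) (SimpleFunc.const Ω 0) -
        SimpleFunc.const Ω a) with hQ
  have hQu : ∀ᵐ v ∂μ, 0 ≤ (Q - SimpleFunc.const Ω (u / 2)) v := by
    filter_upwards [hlow] with v hv
    have hpw : SimpleFunc.piecewise A hA (SimpleFunc.const Ω (1 : ℝ)) (SimpleFunc.const Ω 0) v =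
        A.indicator (fun _ => (1 : ℝ)) v := by
      by_cases hv' : v ∈ A <;> simp [hv']
    simp only [hQ, SimpleFunc.coe_sub, SimpleFunc.coe_add, SimpleFunc.coe_smul, Pi.sub_apply,
      Pi.add_apply, Pi.smul_apply, SimpleFunc.coe_const, Function.const_apply, smul_eq_mul, hpw]
    rw [show ((∑ x, ((q x).comp (R x).symm (R x).symm.measurable - q x) :
        SimpleFunc Ω ℝ) : Ω → ℝ) v = ∑ x, (q x ((R x).symm v) - q x v) from ?_]
    · have hd : ∀ x, (h x ((R x).symm v) - h x v) - 2 * δ ≤ q x ((R x).symm v) - q x v :=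
          fun x => by
        have h1 := abs_le.1 (hq x ((R x).symm v))
        have h2 := abs_le.1 (hq x v)
        linarith [h1.1, h2.2]
      have hs := Finset.sum_le_sum fun x (_ : x ∈ Finset.univ) => hd x
      rw [Finset.sum_sub_distrib, Finset.sum_const, nsmul_eq_mul, Finset.card_univ] at hs
      have hcd : (Fintype.card ι : ℝ) * (2 * δ) ≤ u / 2 := by
        have e : ((Fintype.card ι : ℝ) + 1) * (2 * δ) = u / 2 := by
          simp only [δ]
          field_simp
          ring
        linarith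
      simp only [hH] at hv
      linarith
    · generalize (Finset.univ : Finset ι) = S
      induction S using Finset.induction_on with
      | empty => simp
      | insert x S hxS ih =>
        rw [Finset.sum_insert hxS, Finset.sum_insert hxS, SimpleFunc.coe_add, Pi.add_apply, ih]
        rfl
  have hQ0 : meanI m Q = 0 := by
    have hpwI : meanI m (SimpleFunc.piecewise A hA (SimpleFunc.const Ω 1)
        (SimpleFunc.const Ω 0)) = a := by
      rw [meanI_eq]
      rw [Finset.sum_eq_single (1 : ℝ)]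
      · rw [mul_one, ha]
        congr 1
        ext v
        by_cases hv : v ∈ A <;> simp [hv]
      · intro y hy hy1
        obtain ⟨v, rfl⟩ := SimpleFunc.mem_range.1 hy
        by_cases hv : v ∈ A
        · simp [hv] at hy1
        · simp [hv]
      · intro h1
        rw [mul_one]
        refine (congrArg m ?_).trans (hm.null ∅ MeasurableSet.empty measure_empty)
        ext v
        simp only [Set.mem_preimage, Set.mem_singleton_iff, Set.mem_empty_iff_false, iff_false]
        exact fun hv => h1 (SimpleFunc.mem_range.2 ⟨v, hv⟩)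
    rw [hQ, hm.meanI_add, hm.meanI_sum, hm.meanI_smul, hm.meanI_sub, hpwI, hm.meanI_const,
      sub_self, mul_zero, add_zero]
    refine Finset.sum_eq_zero fun x _ => ?_
    rw [hm.meanI_sub, hm.meanI_comp_symm x, sub_self]
  have := hm.meanI_nonneg hQu
  rw [hm.meanI_sub, hQ0, hm.meanI_const] at this
  linarith

/-- **An almost invariant density is almost constant.** -/
theorem l1_dist_one_le {κ : ℝ} (hκ : 0 < κ) (hR : ∀ i, MeasurePreserving (R i) μ μ)
    (hgap : ∀ g : Ω → ℝ, MemLp g 2 μ →
      ∃ i, κ * ∫ u, (g u - ∫ v, g v ∂μ) ^ 2 ∂μ ≤ ∫ u, (g (R i u) - g u) ^ 2 ∂μ)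
    {f : LOne μ} (hf : IsDensity f) {ε η : ℝ} (hη : 0 < η)
    (hinv : ∀ i, ‖pullLOne (R i) (hR i) f - f‖ ≤ ε) :
    ∫ u, |f u - 1| ∂μ ≤ ε / (κ * η) + 2 * η := by
  set g : Ω → ℝ := fun u => Real.sqrt (f u) with hg
  have hgm : AEStronglyMeasurable g μ :=
    Real.continuous_sqrt.comp_aestronglyMeasurable (Lp.aestronglyMeasurable f)
  have hsq : ∀ᵐ u ∂μ, g u ^ 2 = f u := hf.1.mono fun u hu => Real.sq_sqrt hu
  have hg2 : MemLp g 2 μ :=
    (memLp_two_iff_integrable_sq hgm).2 ((integrable_LOne f).congr (hsq.mono fun u hu => hu.symm))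
  have hgi : Integrable g μ := hg2.integrable (by norm_num)
  have hisq : ∫ u, g u ^ 2 ∂μ = 1 := (integral_congr_ae hsq).trans hf.2
  set c := ∫ u, g u ∂μ with hc
  have hc0 : 0 ≤ c := integral_nonneg fun u => Real.sqrt_nonneg _
  have hquad : ∀ b d : ℝ,
      ∫ u, (g u ^ 2 + b * g u + d) ∂μ = 1 + b * c + d := fun b d => by
    rw [integral_add (f := fun u => g u ^ 2 + b * g u) (g := fun _ => d)
        (hg2.integrable_sq.add (hgi.const_mul b)) (integrable_const d),
      integral_add (f := fun u => g u ^ 2) (g := fun u => b * g u) hg2.integrable_sq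
        (hgi.const_mul b), integral_const_mul, integral_const, hisq, ← hc, probReal_univ, one_smul]
  have hvar : ∫ u, (g u - c) ^ 2 ∂μ = 1 - c ^ 2 := by
    rw [integral_congr_ae (Eventually.of_forall fun u => show (g u - c) ^ 2 =
      g u ^ 2 + (-2 * c) * g u + c ^ 2 by ring), hquad]
    ring
  have hδ : 0 ≤ 1 - c ^ 2 := hvar ▸ integral_nonneg fun u => sq_nonneg _
  obtain ⟨x, hmoved⟩ := hgap g hg2
  rw [← hc, hvar] at hmoved
  have hkey : κ * (1 - c ^ 2) ≤ ε := by
    refine hmoved.trans (le_trans (integral_mono_of_nonneg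
      (Eventually.of_forall fun u => sq_nonneg _) (integrable_LOne _).norm ?_)
      ((norm_LOne _).ge.trans (hinv x)))
    filter_upwards [Lp.coeFn_sub (pullLOne (R x) (hR x) f) f, coeFn_pullLOne (R x) (hR x) f, hf.1,
      (hR x).quasiMeasurePreserving.ae hf.1] with u h2 h3 h4 h5
    show (g (R x u) - g u) ^ 2 ≤ ‖(pullLOne (R x) (hR x) f - f : LOne μ) u‖
    rw [h2, Pi.sub_apply, h3, Real.norm_eq_abs, hg]
    have e1 := Real.sq_sqrt h5
    have e2 := Real.sq_sqrt h4
    have n1 := Real.sqrt_nonneg (f (R x u))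
    have n2 := Real.sqrt_nonneg (f u)
    rcases le_total (Real.sqrt (f u)) (Real.sqrt (f (R x u))) with hle | hle
    · refine le_trans ?_ (le_abs_self _)
      nlinarith [mul_nonneg (sub_nonneg.2 hle) n2]
    · refine le_trans ?_ (neg_le_abs _)
      nlinarith [mul_nonneg (sub_nonneg.2 hle) n1]
  have hc1 : c ≤ 1 := by nlinarith
  have hb : ∫ u, |f u - 1| ∂μ ≤ (2 - 2 * c) / (2 * η) + η / 2 * (2 + 2 * c) := by
    have i1 : Integrable (fun u => (g u - 1) ^ 2) μ :=
      (hg2.sub (memLp_const (1 : ℝ))).integrable_sq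
    have i2 : Integrable (fun u => (g u + 1) ^ 2) μ :=
      (hg2.add (memLp_const (1 : ℝ))).integrable_sq
    have hmono : ∫ u, |f u - 1| ∂μ ≤
        ∫ u, ((g u - 1) ^ 2 / (2 * η) + η / 2 * (g u + 1) ^ 2) ∂μ := by
      refine integral_mono_ae ((integrable_LOne f).sub (integrable_const 1)).abs
        ((i1.div_const _).add (i2.const_mul _)) ?_
      filter_upwards [hsq] with u hu
      show |f u - 1| ≤ (g u - 1) ^ 2 / (2 * η) + η / 2 * (g u + 1) ^ 2
      rw [← hu, show g u ^ 2 - 1 = (g u - 1) * (g u + 1) by ring, abs_mul]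
      have := mul_nonneg (inv_nonneg.2 (mul_nonneg zero_le_two hη.le))
        (sq_nonneg (|g u - 1| - η * |g u + 1|))
      rw [sub_sq, sq_abs, mul_pow, sq_abs] at this
      field_simp at this ⊢
      nlinarith [this]
    refine hmono.trans (le_of_eq ?_)
    rw [integral_add (i1.div_const _) (i2.const_mul _), integral_div, integral_const_mul]
    have e1 : ∫ u, (g u - 1) ^ 2 ∂μ = 2 - 2 * c := by
      rw [integral_congr_ae (Eventually.of_forall fun u => show (g u - 1) ^ 2 =
        g u ^ 2 + (-2) * g u + 1 by ring), hquad]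
      ring
    have e2 : ∫ u, (g u + 1) ^ 2 ∂μ = 2 + 2 * c := by
      rw [integral_congr_ae (Eventually.of_forall fun u => show (g u + 1) ^ 2 =
        g u ^ 2 + 2 * g u + 1 by ring), hquad]
      ring
    rw [e1, e2]
  refine hb.trans (add_le_add ?_ (by nlinarith))
  rw [div_le_div_iff₀ (by positivity) (mul_pos hκ hη)]
  have h2 : κ * (1 - c) ≤ ε :=
    le_trans (mul_le_mul_of_nonneg_left (by nlinarith) hκ.le) hkey
  calc (2 - 2 * c) * (κ * η) = (κ * (1 - c)) * (2 * η) := by
        ring
    _ ≤ ε * (2 * η) := mul_le_mul_of_nonneg_right h2 (by positivity)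

/-- **An invariant mean is the invariant measure.** -/
theorem MeanInvariant.eq_measure [Fintype ι] {κ : ℝ} (hκ : 0 < κ) (hm : MeanInvariant μ R m)
    (hR : ∀ i, MeasurePreserving (R i) μ μ)
    (hgap : ∀ g : Ω → ℝ, MemLp g 2 μ →
      ∃ i, κ * ∫ u, (g u - ∫ v, g v ∂μ) ^ 2 ∂μ ≤ ∫ u, (g (R i u) - g u) ^ 2 ∂μ)
    {A : Set Ω} (hA : MeasurableSet A) : m A = μ.real A := by
  refine sub_eq_zero.1 (abs_eq_zero.1 (le_antisymm (le_of_forall_gt_imp_ge_of_dense
    fun e he => ?_) (abs_nonneg _)))
  set η := e / 4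
  have hη : 0 < η := by positivity
  set ε := min η (η ^ 2 * κ)
  have hε : 0 < ε := by positivity
  obtain ⟨f, hf, hinv, hval⟩ := exists_almost_invariant hR hm hA hε
  have h1 := l1_dist_one_le hκ hR hgap hf hη hinv
  have hif : Integrable (fun u => |f u - 1|) μ :=
    ((integrable_LOne f).sub (integrable_const 1)).abs
  have h2 : |(∫ u in A, f u ∂μ) - μ.real A| ≤ ∫ u, |f u - 1| ∂μ := by
    have e1 : (∫ u in A, f u ∂μ) - μ.real A =
        ∫ u in A, (f u - 1) ∂μ := by
      rw [integral_sub (integrable_LOne f).integrableOn (integrable_const 1).integrableOn,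
        setIntegral_const, smul_eq_mul, mul_one]
    rw [e1]
    exact (abs_integral_le_integral_abs).trans
      (setIntegral_le_integral hif (Eventually.of_forall fun u => abs_nonneg _))
  have h3 : ε / (κ * η) ≤ η := by
    rw [div_le_iff₀ (mul_pos hκ hη)]
    exact (min_le_right _ _).trans (le_of_eq (by ring))
  have h4 : ε ≤ η := min_le_left _ _
  have h5 := abs_sub_le (m A) (∫ u in A, f u ∂μ) (μ.real A)
  rw [abs_sub_comm] at hval
  simp only [η] at *
  linarith

end FA.BanachRuziewicz

end
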