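import Fermat.Agent.BanachRuziewicz.Gap
import Fermat.Agent.BanachRuziewicz.Generic

/-!
# Invariant means on the three-sphere

The rotations of norm `p` satisfy the hypothesis of the step with a spectral gap, so a mean
invariant under them is the invariant measure.
-/

set_option autoImplicit false
set_option linter.unusedSectionVars false
set_option linter.style.haveILetI false

noncomputable section

open Quaternion MeasureTheory
open scoped Quaternion
open FA.QuaternionJL FA.QuaternionJLSystems
open FA.SphereHecke (R4 sphereLaw)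

namespace FA.BanachRuziewicz

/-- A finitely additive probability vanishing on null sets, invariant under the rotations. -/
structure InvariantMean (p : ℕ) (m : Set R4 → ℝ) : Prop where
  nonneg : ∀ s, MeasurableSet s → 0 ≤ m s
  univ : m Set.univ = 1
  union : ∀ s t, MeasurableSet s → MeasurableSet t → Disjoint s t → m (s ∪ t) = m s + m t
  null : ∀ s, MeasurableSet s → sphereLaw s = 0 → m s = 0
  invariant : ∀ x ∈ normHz p, ∀ s, MeasurableSet s → m (rotFun p x ⁻¹' s) = m s

/-- The rotation as an automorphism of the measurable space. -/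
def rotMeas {p : ℕ} (hp : p ≠ 0) (x : normHz p) : R4 ≃ᵐ R4 :=
  (rotEquiv hp x.2).toHomeomorph.toMeasurableEquiv

theorem coe_rotMeas {p : ℕ} (hp : p ≠ 0) (x : normHz p) : ⇑(rotMeas hp x) = rotFun p x :=
  coe_rotEquiv hp x.2

/-- **An invariant mean is the invariant measure.** -/
theorem InvariantMean.eq_sphereLaw {p : ℕ} {m : Set R4 → ℝ} (hm : InvariantMean p m) (hp : p.Prime)
    (h16 : 16 ≤ p) {A : Set R4} (hA : MeasurableSet A) : m A = sphereLaw.real A := by
  have hθ : 0 < 1 - gapRate p := sub_pos.2 (gapRate_lt_one h16)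
  have hgen : MeanInvariant sphereLaw (rotMeas hp.ne_zero) m :=
    ⟨hm.nonneg, hm.univ, hm.union, hm.null, fun x s hs => by
      rw [coe_rotMeas]
      exact hm.invariant x x.2 s hs⟩
  refine hgen.eq_measure (pow_pos hθ 2) (fun x => ?_) (fun g hg => ?_) hA
  · rw [coe_rotMeas]
    exact measurePreserving_rotFun hp.ne_zero x.2
  · obtain ⟨x, hx, h⟩ := exists_moved hp h16 (hg.toLp g)
    refine ⟨⟨x, hx⟩, ?_⟩
    have h1 := pow_le_pow_left₀ (mul_nonneg hθ.le (norm_nonneg _)) h 2
    rw [mul_pow, centred_toLp hg, rotL_toLp hp.ne_zero hx hg] at h1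
    rw [coe_rotMeas]
    exact h1

end FA.BanachRuziewicz

end
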