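import Fermat.Agent.SphereHecke.Sphere
import Fermat.Agent.HarmonicTheta.Eigen

/-!
# The rotations of the sphere given by quaternions of norm `p`

Left multiplication by `x / √p` is an isometry preserving the law of the sphere, with inverse that
by the conjugate; in the complex matrix model it multiplies by the matrix of `x / √p`.
-/

set_option autoImplicit false
set_option linter.unusedSectionVars false
set_option linter.style.haveILetI false

noncomputable section

open Quaternion Matrix MeasureTheory Metric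
open scoped Quaternion RealInnerProductSpace ComplexConjugate
open FA.QuaternionJL FA.QuaternionJLSystems
open FA.SphereHecke (R4 dirMat sphereLaw radial vec4 inner_four unitMat twist star_mem_normHz)

namespace FA.BanachRuziewicz

/-- Multiplication by a quaternion on the left. -/
def qlin (x : ℍ[ℚ]) : R4 →ₗ[ℝ] R4 where
  toFun u := WithLp.toLp 2
    ![(x.re : ℝ) * u 0 - x.imI * u 1 - x.imJ * u 2 - x.imK * u 3,
      (x.re : ℝ) * u 1 + x.imI * u 0 + x.imJ * u 3 - x.imK * u 2,
      (x.re : ℝ) * u 2 - x.imI * u 3 + x.imJ * u 0 + x.imK * u 1,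
      (x.re : ℝ) * u 3 + x.imI * u 2 - x.imJ * u 1 + x.imK * u 0]
  map_add' u v := by
    refine WithLp.ofLp_injective 2 (funext fun i => ?_)
    fin_cases i <;> simp <;> ring
  map_smul' c u := by
    refine WithLp.ofLp_injective 2 (funext fun i => ?_)
    fin_cases i <;> simp <;> ring

theorem norm_qlin (x : ℍ[ℚ]) (u : R4) :
    ‖qlin x u‖ ^ 2 = ((normSq x : ℚ) : ℝ) * ‖u‖ ^ 2 := by
  rw [← real_inner_self_eq_norm_sq, ← real_inner_self_eq_norm_sq, inner_four, inner_four,
    normSq_def']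
  simp [qlin]
  ring

theorem qlin_mul (x y : ℍ[ℚ]) (u : R4) : qlin (x * y) u = qlin x (qlin y u) := by
  refine WithLp.ofLp_injective 2 (funext fun i => ?_)
  fin_cases i <;> simp [qlin] <;> ring

theorem qlin_natCast (n : ℕ) (u : R4) : qlin (n : ℍ[ℚ]) u = (n : ℝ) • u := by
  refine WithLp.ofLp_injective 2 (funext fun i => ?_)
  fin_cases i <;> simp [qlin]

/-- Multiplication by `x / √n`. -/
def rotFun (n : ℕ) (x : ℍ[ℚ]) (u : R4) : R4 := (Real.sqrt n)⁻¹ • qlin x u

theorem norm_rotFun {n : ℕ} (hn : n ≠ 0) {x : ℍ[ℚ]} (hx : x ∈ normHz n) (u : R4) :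
    ‖rotFun n x u‖ = ‖u‖ := by
  have h0 : (0 : ℝ) < n := Nat.cast_pos.2 (Nat.pos_of_ne_zero hn)
  refine (sq_eq_sq₀ (norm_nonneg _) (norm_nonneg _)).1 ?_
  rw [rotFun, norm_smul, mul_pow, norm_qlin, (mem_normHz.1 hx).2, Rat.cast_natCast, norm_inv,
    Real.norm_of_nonneg (Real.sqrt_nonneg _), inv_pow, Real.sq_sqrt h0.le,
    inv_mul_cancel_left₀ h0.ne']

theorem rotFun_star {n : ℕ} (hn : n ≠ 0) {x : ℍ[ℚ]} (hx : x ∈ normHz n) (u : R4) :
    rotFun n (star x) (rotFun n x u) = u := by
  have h0 : (0 : ℝ) < n := Nat.cast_pos.2 (Nat.pos_of_ne_zero hn)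
  rw [rotFun, rotFun, map_smul, ← qlin_mul, Quaternion.star_mul_self, (mem_normHz.1 hx).2,
    Quaternion.coe_natCast, qlin_natCast, smul_smul, smul_smul, ← mul_inv,
    Real.mul_self_sqrt h0.le, inv_mul_cancel₀ h0.ne', one_smul]

/-- The rotation. -/
def rotEquiv {n : ℕ} (hn : n ≠ 0) {x : ℍ[ℚ]} (hx : x ∈ normHz n) : R4 ≃ₗᵢ[ℝ] R4 :=
  LinearIsometry.toLinearIsometryEquiv
    ⟨(Real.sqrt n)⁻¹ • qlin x, norm_rotFun hn hx⟩ rfl

theorem coe_rotEquiv {n : ℕ} (hn : n ≠ 0) {x : ℍ[ℚ]} (hx : x ∈ normHz n) :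
    ⇑(rotEquiv hn hx) = rotFun n x := rfl

theorem continuous_rotFun (n : ℕ) (x : ℍ[ℚ]) : Continuous (rotFun n x) := by
  have h := (qlin x).continuous_of_finiteDimensional
  show Continuous fun u => (Real.sqrt n)⁻¹ • qlin x u
  exact h.const_smul ((Real.sqrt n)⁻¹)

/-- **The law of the sphere is invariant under every isometry.** -/
theorem measurePreserving_isometry (e : R4 ≃ₗᵢ[ℝ] R4) :
    MeasurePreserving e sphereLaw sphereLaw := by
  refine ⟨e.continuous.measurable, ?_⟩
  have hball : (e : R4 → R4) ⁻¹' ball (0 : R4) 1 = ball (0 : R4) 1 := by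
    ext x
    simp
  have hc : (ProbabilityTheory.cond volume (ball (0 : R4) 1)).map e =
      ProbabilityTheory.cond volume (ball (0 : R4) 1) := by
    have h := (e.measurePreserving.restrict_preimage (measurableSet_ball (x := (0 : R4)) (ε := 1)))
    rw [hball] at h
    rw [ProbabilityTheory.cond, Measure.map_smul, h.map_eq]
  have hcomm : (e : R4 → R4) ∘ radial = radial ∘ e := by
    funext x
    simp [radial]
  rw [sphereLaw, Measure.map_map e.continuous.measurable SphereHecke.measurable_radial, hcomm,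
    ← Measure.map_map SphereHecke.measurable_radial e.continuous.measurable, hc]

theorem measurePreserving_rotFun {n : ℕ} (hn : n ≠ 0) {x : ℍ[ℚ]} (hx : x ∈ normHz n) :
    MeasurePreserving (rotFun n x) sphereLaw sphereLaw :=
  coe_rotEquiv hn hx ▸ measurePreserving_isometry (rotEquiv hn hx)

theorem measurableEmbedding_rotFun {n : ℕ} (hn : n ≠ 0) {x : ℍ[ℚ]} (hx : x ∈ normHz n) :
    MeasurableEmbedding (rotFun n x) :=
  coe_rotEquiv hn hx ▸ (rotEquiv hn hx).toHomeomorph.measurableEmbedding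

/-- A point as a complex matrix. -/
def matU (u : R4) : Matrix (Fin 2) (Fin 2) ℂ :=
  !![(u 0 : ℂ) + u 1 * Complex.I, (u 2 : ℂ) + u 3 * Complex.I;
    -(u 2 : ℂ) + u 3 * Complex.I, (u 0 : ℂ) - u 1 * Complex.I]

theorem matU_rotFun (n : ℕ) (x : ℍ[ℚ]) (u : R4) :
    matU (rotFun n x u) = (((Real.sqrt n)⁻¹ : ℝ) : ℂ) • (toMat x * matU u) := by
  ext a b
  fin_cases a <;> fin_cases b <;>
    simp [rotFun, qlin, matU, toMat] <;> ring_nf <;>
    simp only [Complex.I_sq] <;> ring

theorem matU_conjTranspose (u : R4) : (matU u)ᴴ = dirMat u := by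
  ext a b
  fin_cases a <;> fin_cases b <;> simp [matU, dirMat] <;> ring

theorem trace_matU_dirMat (u g : R4) :
    (matU u * dirMat g).trace = ((2 * ⟪u, g⟫ : ℝ) : ℂ) := by
  rw [inner_four]
  simp only [trace_fin_two, Matrix.mul_apply, Fin.sum_univ_two, matU, dirMat, Matrix.of_apply,
    Matrix.cons_val', Matrix.cons_val_zero, Matrix.cons_val_one, Matrix.cons_val_fin_one]
  push_cast
  linear_combination -2 * ((u 1 : ℂ) * (g 1 : ℂ) + (u 3 : ℂ) * (g 3 : ℂ)) * Complex.I_sq

theorem dirMat_mul_matU {u : R4} (hu : ‖u‖ = 1) : dirMat u * matU u = 1 := by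
  have h := real_inner_self_eq_norm_sq u
  rw [hu, inner_four, one_pow] at h
  have h' := congrArg (fun r : ℝ => (r : ℂ)) h
  push_cast at h'
  ext a b
  fin_cases a <;> fin_cases b <;>
    simp [matU, dirMat] <;> ring_nf <;>
    simp only [Complex.I_sq] <;> linear_combination h'

theorem matU_mul_dirMat {u : R4} (hu : ‖u‖ = 1) : matU u * dirMat u = 1 :=
  mul_eq_one_comm.1 (dirMat_mul_matU hu)

theorem det_matU {u : R4} (hu : ‖u‖ = 1) : (matU u).det = 1 := by
  have := congrArg Matrix.det (matU_mul_dirMat hu)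
  rwa [det_mul, SphereHecke.det_dirMat hu, mul_one, det_one] at this

theorem symMat_smul (j : ℕ) (c : ℂ) (g : Matrix (Fin 2) (Fin 2) ℂ) :
    symMat j (c • g) = c ^ j • symMat j g := by
  ext k l
  have hk : (k : ℕ) ≤ j := Nat.le_of_lt_succ k.2
  have e : symRow j (c • g) k = Polynomial.C (c ^ j) * symRow j g k := by
    have h1 : (Polynomial.C c : Polynomial ℂ) ^ (k : ℕ) * Polynomial.C c ^ (j - k) =
        Polynomial.C c ^ j := by
      rw [← pow_add, Nat.add_sub_cancel' hk]
    simp only [symRow, Matrix.smul_apply, smul_eq_mul, Polynomial.C_mul, Polynomial.C_pow,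
      mul_assoc, ← mul_add, mul_pow]
    rw [← h1]
    ring
  simp only [symMat, Matrix.of_apply, Matrix.smul_apply, e, Polynomial.coeff_C_mul, smul_eq_mul]

end FA.BanachRuziewicz

end
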